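import Mathlib
import Fermat.Agent.S30.Analytic.Local
import Fermat.Agent.S30.Analytic.Character
import Fermat.Agent.S48.B.B1.Seams
import Fermat.Agent.S48.B.B1.RepHom1
import Fermat.Agent.S48.B.B1.Lmap1Taylor

/-!
# PROJECT D (S48), part B, block B5, brick C1 (first third): the root character of an element of
the function field of `X₁(M)` (helper5; twin of helper27's `S30/Analytic/RepChar` with
`(Γ₀(N), IsRepOf N)` replaced by `(Γ₁(M), Seams.IsRepOf1 M)`)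

For `g ∈ repField1 M`, `g ≠ 0`, and `n ≥ 1`:

* `RootCharOf1 M n g ψ` : `ψ` is the root character (for `Γ₁(M)`) of `a * b ^ (n - 1)` in weight `k`
  for SOME representation `g = a / b` in weight `k`;
* `RootCharOf1.unique` : it does not depend on the representation;
* `RootCharOf1.mul`, `rootCharOf1_pow_self`, `rootCharOf1_const`, `RootCharOf1.pow_eq_one`.

The function-level theory (`S30/Analytic/{Character, Local}`) is level-free and reused.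
-/

set_option autoImplicit false
set_option linter.unusedSectionVars false

noncomputable section

namespace Fermat.Agent.S48.B.Dict.RepChar

open UpperHalfPlane ModularForm CongruenceSubgroup
open Fermat.Agent.S20 Fermat.Agent.S23.QRing
open Fermat.Agent.S24.RepHom (mdiff_of_isMF)
open Fermat.Agent.S30.Analytic.Character
open Fermat.Agent.S48.B.B1.Seams Fermat.Agent.S48.B.B1.RepHom1 Fermat.Agent.S48.B.B1.Lmap1Taylor
open scoped Manifold MatrixGroups ModularForm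

variable {M : ℕ} [NeZero M]

/-- forms for `Γ₁(M)` are invariant under the slash action of `Γ₁(M)` -/
theorem slash_eq_of_isMF1 {k : ℤ} {a : ℍ → ℂ} (ha : IsMF (G1 M) k a) {γ : SL(2, ℤ)}
    (hγ : γ ∈ Gamma1 M) : a ∣[k] γ = a := by
  obtain ⟨A, rfl⟩ := ha
  rw [ModularForm.SL_slash]
  exact SlashInvariantFormClass.slash_action_eq A _ ⟨γ, hγ, rfl⟩

theorem pow_ne_zero_fun {b : ℍ → ℂ} (hb : b ≠ 0) (n : ℕ) : b ^ n ≠ 0 := by
  obtain ⟨z, hz⟩ : ∃ z, b z ≠ 0 := by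
    by_contra hcon
    exact hb (funext fun τ => by_contra fun h => hcon ⟨τ, h⟩)
  intro h0
  have := congrFun h0 z
  rw [Pi.pow_apply, Pi.zero_apply] at this
  exact hz (eq_zero_of_pow_eq_zero this)

theorem mul_ne_zero_fun {a b : ℍ → ℂ} (ha : MDiff a) (hb : MDiff b) (ha0 : a ≠ 0) (hb0 : b ≠ 0) :
    a * b ≠ 0 := by
  intro h0
  rcases eq_zero_or_eq_zero_of_mul_eq_zero ha hb h0 with h | h
  · exact ha0 h
  · exact hb0 h

/-- the numerator form `a * b ^ (n - 1)` of the `n`-th roots of `a / b` -/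
theorem rootForm1_ne_zero {g : LaurentSeries ℂ} {k : ℤ} {a b : ℍ → ℂ} (h : IsRepOf1 M g k a b)
    (hg : g ≠ 0) (n : ℕ) : a * b ^ (n - 1) ≠ 0 :=
  mul_ne_zero_fun (mdiff_of_isMF h.ha) ((mdiff_of_isMF h.hb).pow _)
    (num_ne_zero_of_isRepOf1 h hg) (pow_ne_zero_fun h.hb0 _)

theorem rootForm1_mdiff {g : LaurentSeries ℂ} {k : ℤ} {a b : ℍ → ℂ} (h : IsRepOf1 M g k a b)
    (n : ℕ) : MDiff (a * b ^ (n - 1)) :=
  (mdiff_of_isMF h.ha).mul ((mdiff_of_isMF h.hb).pow _)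

theorem rootForm1_isMF {g : LaurentSeries ℂ} {k : ℤ} {a b : ℍ → ℂ} (h : IsRepOf1 M g k a b)
    {n : ℕ} (hn : n ≠ 0) : IsMF (G1 M) ((n : ℤ) * k) (a * b ^ (n - 1)) := by
  have h1 := h.ha.mul (h.hb.pow (n - 1))
  refine h1.cast ?_
  have : 1 ≤ n := Nat.one_le_iff_ne_zero.mpr hn
  push_cast [Nat.cast_sub this]
  ring

theorem rootForm1_slash {g : LaurentSeries ℂ} {k : ℤ} {a b : ℍ → ℂ} (h : IsRepOf1 M g k a b)
    {n : ℕ} (hn : n ≠ 0) {γ : SL(2, ℤ)} (hγ : γ ∈ Gamma1 M) :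
    (a * b ^ (n - 1)) ∣[(n : ℤ) * k] γ = a * b ^ (n - 1) :=
  slash_eq_of_isMF1 (rootForm1_isMF h hn) hγ

/-- `ψ` is the character of the `n`-th roots of the modular function `g` on `Γ₁(M)` -/
def RootCharOf1 (M : ℕ) [NeZero M] (n : ℕ) (g : LaurentSeries ℂ) (ψ : Gamma1 M →* ℂˣ) : Prop :=
  ∃ (k : ℤ) (a b : ℍ → ℂ), IsRepOf1 M g k a b ∧ IsRootChar (Gamma1 M) n k (a * b ^ (n - 1)) ψ

/-- Independence of the representation. -/
theorem isRootChar1_unique {n : ℕ} (hn : n ≠ 0) {g : LaurentSeries ℂ} (hg : g ≠ 0) {k k' : ℤ}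
    {a b a' b' : ℍ → ℂ} (h : IsRepOf1 M g k a b) (h' : IsRepOf1 M g k' a' b')
    {ψ ψ' : Gamma1 M →* ℂˣ} (hψ : IsRootChar (Gamma1 M) n k (a * b ^ (n - 1)) ψ)
    (hψ' : IsRootChar (Gamma1 M) n k' (a' * b' ^ (n - 1)) ψ') : ψ = ψ' := by
  obtain ⟨m, rfl⟩ : ∃ m, n = m + 1 := ⟨n - 1, (Nat.succ_pred_eq_of_ne_zero hn).symm⟩
  simp only [Nat.add_sub_cancel] at hψ hψ'
  have hcross := IsRepOf1x.cross h h'
  have hb : IsRootChar (Gamma1 M) (m + 1) k (b ^ (m + 1)) 1 :=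
    IsRootChar.of_pow (mdiff_of_isMF h.hb) (fun γ hγ => slash_eq_of_isMF1 h.hb hγ)
  have hb' : IsRootChar (Gamma1 M) (m + 1) k' (b' ^ (m + 1)) 1 :=
    IsRootChar.of_pow (mdiff_of_isMF h'.hb) (fun γ hγ => slash_eq_of_isMF1 h'.hb hγ)
  have h1 := hψ.mul hb'
  have h2 := hψ'.mul hb
  have heq : a * b ^ m * b' ^ (m + 1) = a' * b' ^ m * b ^ (m + 1) := by
    linear_combination (b ^ m * b' ^ m) * hcross
  have e1 : ψ * 1 = ψ := mul_one ψ
  have e2 : ψ' * 1 = ψ' := mul_one ψ'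
  rw [e1] at h1
  rw [e2] at h2
  rw [heq, add_comm k k'] at h1
  refine IsRootChar.unique (Nat.succ_ne_zero m) ?_ h1 h2
  have e1 := rootForm1_ne_zero h' hg (m + 1)
  simp only [Nat.add_sub_cancel] at e1
  exact mul_ne_zero_fun ((mdiff_of_isMF h'.ha).mul ((mdiff_of_isMF h'.hb).pow _))
    ((mdiff_of_isMF h.hb).pow _) e1 (pow_ne_zero_fun h.hb0 _)

namespace RootCharOf1

variable {n : ℕ} {g g' : LaurentSeries ℂ} {ψ ψ' : Gamma1 M →* ℂˣ}

theorem unique (hn : n ≠ 0) (hg : g ≠ 0) (h : RootCharOf1 M n g ψ) (h' : RootCharOf1 M n g ψ') :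
    ψ = ψ' := by
  obtain ⟨k, a, b, hr, hψ⟩ := h
  obtain ⟨k', a', b', hr', hψ'⟩ := h'
  exact isRootChar1_unique hn hg hr hr' hψ hψ'

/-- for every representation of `g`, `ψ` is the root character of `a * b ^ (n - 1)` -/
theorem isRootChar (hn : n ≠ 0) (hg : g ≠ 0) (h : RootCharOf1 M n g ψ) {k : ℤ} {a b : ℍ → ℂ}
    (hr : IsRepOf1 M g k a b) (hex : ∃ ψ', IsRootChar (Gamma1 M) n k (a * b ^ (n - 1)) ψ') :
    IsRootChar (Gamma1 M) n k (a * b ^ (n - 1)) ψ := by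
  obtain ⟨ψ', hψ'⟩ := hex
  rwa [h.unique hn hg ⟨k, a, b, hr, hψ'⟩]

theorem mul (h : RootCharOf1 M n g ψ) (h' : RootCharOf1 M n g' ψ') :
    RootCharOf1 M n (g * g') (ψ * ψ') := by
  obtain ⟨k, a, b, hr, hψ⟩ := h
  obtain ⟨k', a', b', hr', hψ'⟩ := h'
  refine ⟨k + k', a * a', b * b', IsRepOf1x.mul hr hr', ?_⟩
  have := hψ.mul hψ'
  have e : a * b ^ (n - 1) * (a' * b' ^ (n - 1)) = a * a' * (b * b') ^ (n - 1) := by
    rw [mul_pow]; ring
  rwa [e] at this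

theorem pow_eq_one (hn : n ≠ 0) (hg : g ≠ 0) (h : RootCharOf1 M n g ψ) : ψ ^ n = 1 := by
  obtain ⟨k, a, b, hr, hψ⟩ := h
  exact hψ.pow_eq_one hn (rootForm1_ne_zero hr hg n) (fun γ hγ => rootForm1_slash hr hn hγ)

end RootCharOf1

theorem IsRepOf1_pow {g : LaurentSeries ℂ} {k : ℤ} {a b : ℍ → ℂ} (h : IsRepOf1 M g k a b)
    (n : ℕ) : IsRepOf1 M (g ^ n) ((n : ℤ) * k) (a ^ n) (b ^ n) where
  ha := h.ha.pow n
  hb := h.hb.pow n
  hb0 := pow_ne_zero_fun h.hb0 n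
  eq := by
    rw [qx_pow (isQ_of_isMF1 h.ha), qx_pow (isQ_of_isMF1 h.hb), map_pow, map_pow, h.eq, mul_pow]

/-- `n`-th powers have trivial root character -/
theorem rootCharOf1_pow_self {n : ℕ} (hn : n ≠ 0) {g : LaurentSeries ℂ} (hg : IsRepC1 M g) :
    RootCharOf1 M n (g ^ n) 1 := by
  obtain ⟨k, a, b, hr⟩ := hg
  refine ⟨(n : ℤ) * k, a ^ n, b ^ n, IsRepOf1_pow hr n, ?_⟩
  have e : a ^ n * (b ^ n) ^ (n - 1) = (a * b ^ (n - 1)) ^ n := by
    rw [mul_pow, ← pow_mul, ← pow_mul, mul_comm n (n - 1)]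
  rw [e]
  exact IsRootChar.of_pow (rootForm1_mdiff hr n) (fun γ hγ => rootForm1_slash hr hn hγ)

/-- non-zero constants have trivial root character -/
theorem rootCharOf1_const {n : ℕ} (hn : n ≠ 0) (c : ℂ) :
    RootCharOf1 M n (HahnSeries.C c) 1 := by
  obtain ⟨c', hc'⟩ : ∃ c' : ℂ, c' ^ n = c := IsAlgClosed.exists_pow_nat_eq c (Nat.pos_of_ne_zero hn)
  refine ⟨0, fun _ => c, 1, IsRepOf1x.const c, ?_⟩
  have e : (fun _ : ℍ => c) * (1 : ℍ → ℂ) ^ (n - 1) = (fun _ : ℍ => c') ^ n := by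
    funext z
    rw [Pi.mul_apply, Pi.pow_apply, Pi.pow_apply, Pi.one_apply, one_pow, mul_one, hc']
  rw [e]
  exact IsRootChar.of_pow mdifferentiable_const
    (fun γ _ => ModularForm.is_invariant_const γ c')

end Fermat.Agent.S48.B.Dict.RepChar
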