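import Mathlib
import Fermat.Agent.S30.Analytic.PointPlace
import Fermat.Agent.S30.Analytic.ComapPlace
import Fermat.Agent.S48.B.B1.LaurentPt1
import Fermat.Agent.S48.B.B1.LaurentCusp1
import Fermat.Agent.S48.B.B1.Lmap1J
import Fermat.Agent.S48.B.B1.Lmap1Taylor

/-!
# PROJECT D (S48), block B5, brick C1 (helper27): twin of `S30/Analytic/PointPlace.lean` for `Γ₁(M)`

The places of the function field at the points of `ℍ` and at the cusps.

`F` a field with `[Algebra ℂ F]` and `ρ : F →+* repField1 M` a surjective ring homomorphism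
compatible with the constants (`ConstCompat1 ρ`); e.g. `F = FC1 M`, `ρ` the identity on Laurent
series.  The level-free part of the original (`cuspHomW`, `valued_cuspExp`, `ordAt_S24_eq`) is
reused from main.

* **`exists_place_point1`** : for every `τ : ℍ` there are a place `P` of `F/ℂ` and `e ≥ 1` with
  `ord_τ a - ord_τ b = e * ord_P f` for every `f ≠ 0` and every representation `ρ f = a / b`, and
  `(denom σ τ) ^ (2 e) = 1` for every `σ ∈ ±Γ₁(M)` fixing `τ`;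
* **`exists_place_cusp1`** : for every `σ : SL(2, ℤ)` and `w ≥ 1` with `σ T ^ w σ⁻¹ ∈ Γ₁(M)` there
  are a place `P` and `e ≥ 1` with
  `cuspOrd w (a ∣[k] σ) - cuspOrd w (b ∣[k] σ) = e * ord_P f`.
-/

set_option autoImplicit false
set_option linter.unusedSectionVars false

noncomputable section

namespace Fermat.Agent.S48.B.Dict.PointPlace

open UpperHalfPlane ModularForm CongruenceSubgroup AlgebraicCurve WithZero Function
open Fermat.Agent.S20 Fermat.Agent.S23.QRing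
open Fermat.Agent.S24.RepHom (HolHom mdiff_of_isMF slash_ne_zero)
open Fermat.Agent.S24.LaurentPt (taylorHolHom valuation_ofPS)
open Fermat.Agent.S24.LaurentCusp Fermat.Agent.S24.Taylor
open Fermat.Agent.S30.Analytic.Character Fermat.Agent.S30.Analytic.Local
open Fermat.Agent.S30.Analytic.ComapPlace Fermat.Agent.LevelOne.JBasic
open Fermat.Agent.S30.Analytic.PointPlace (ordAt_S24_eq cuspHomW valued_cuspExp)
open Fermat.Agent.S48.B.B1.Seams Fermat.Agent.S48.B.B1.RepHom1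
open Fermat.Agent.S48.B.B1.LaurentPt1 Fermat.Agent.S48.B.B1.LaurentCusp1
open Fermat.Agent.S48.B.B1.Lmap1J Fermat.Agent.S48.B.B1.Lmap1Taylor
open scoped Manifold MatrixGroups ModularForm

variable {M : ℕ} [NeZero M] {F : Type*} [Field F] [Algebra ℂ F] (ρ : F →+* repField1 M)

/-- `ρ` is compatible with the constants -/
def ConstCompat1 : Prop := ∀ c : ℂ, ρ (algebraMap ℂ F c) = crep1 M c

variable {ρ}

/-- **The place at a point of `ℍ`.** -/
theorem exists_place_point1 (hρ : ConstCompat1 ρ) (hsurj : Surjective ρ) (τ : ℍ) :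
    ∃ (P : Place ℂ F) (e : ℕ), 0 < e ∧
      (∀ f : F, f ≠ 0 → ∀ (k : ℤ) (a b : ℍ → ℂ), IsRepOf1 M (ρ f : LaurentSeries ℂ) k a b →
        (((ordAt a τ).toNat : ℤ) - ((ordAt b τ).toNat : ℤ)) = e * P.ord f) ∧
      (∀ σ : SL(2, ℤ), σ ∈ PG1 M → σ • τ = τ →
        denom (σ : GL (Fin 2) ℝ) τ ^ (2 * e) = 1) := by
  set ℓ : F →+* LaurentSeries ℂ := (Lpt1 M τ 1).comp ρ with hℓ
  have hK : ∀ c : ℂ, (Valued.v : Valuation (LaurentSeries ℂ) ℤᵐ⁰) (ℓ (algebraMap ℂ F c)) ≤ 1 := by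
    intro c
    rw [hℓ, RingHom.comp_apply, hρ c]
    exact valuation_Lpt1_const_le_one τ 1 c _
  have hnt : ∃ f : F, f ≠ 0 ∧ (Valued.v : Valuation (LaurentSeries ℂ) ℤᵐ⁰) (ℓ f) ≠ 1 := by
    obtain ⟨f, hf⟩ := hsurj (jrep1 M - crep1 M (jFun τ))
    have h1 : Valued.v (ℓ f) =
        exp (-((if jFun τ = 0 then 3 else if jFun τ = 1728 then 2 else 1 : ℕ) : ℤ)) := by
      rw [hℓ, RingHom.comp_apply, hf]
      exact valued_Lmap1_jrep_sub (taylorHolHom τ) (fun _ _ => rfl) 1 (slashP1_mdiff M 1)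
    refine ⟨f, ?_, ?_⟩
    · rintro rfl
      rw [map_zero, map_zero] at h1
      exact WithZero.exp_ne_zero h1.symm
    · rw [h1, ← exp_zero, ne_eq, exp_inj]
      split_ifs <;> omega
  set P := comapPlace (K := ℂ) Valued.v ℓ hK hnt with hP
  obtain ⟨e, he, ⟨π, hπ0, hπ⟩, hef⟩ := exists_ramification P Valued.v ℓ rfl
  refine ⟨P, e, he, ?_, ?_⟩
  · intro f hf k a b hr
    have hg : ρ f ≠ 0 := (map_ne_zero ρ).mpr hf
    have h1 := hef f hf
    rw [hℓ, RingHom.comp_apply, log_valuation_Lpt1 τ 1 hg hr, SlashAction.slash_one,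
      SlashAction.slash_one, ordAt_S24_eq (mdiff_of_isMF hr.ha), ordAt_S24_eq (mdiff_of_isMF hr.hb)]
      at h1
    linarith
  · intro σ hσ hfix
    have hg : ρ π ≠ 0 := (map_ne_zero ρ).mpr hπ0
    have hσ' : (1 : SL(2, ℤ)) * σ * (1 : SL(2, ℤ))⁻¹ ∈ PG1 M := by
      rw [one_mul, inv_one, mul_one]
      exact hσ
    have h1 := denom_zpow_log_valuation_Lpt1 (M := M) (γ := 1) hfix hσ' hg
    rw [hℓ, RingHom.comp_apply] at hπ
    rw [hπ, mul_neg, zpow_neg, inv_eq_one] at h1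
    exact_mod_cast h1

/-! ### cusps -/

/-- slashes by `σ` of forms for `Γ₁(M)` are `w`-periodic if `σ T ^ w σ⁻¹ ∈ Γ₁(M)` -/
theorem slashP1_cuspW {σ : SL(2, ℤ)} {w : ℕ}
    (hw : σ * ModularGroup.T ^ (w : ℤ) * σ⁻¹ ∈ Gamma1 M) : SlashP1 M (IsCuspHol w) σ := by
  rintro k a ⟨A, rfl⟩
  exact ⟨(isCuspHol_slash1 A σ).hol, periodic_slash1 A σ hw, (isCuspHol_slash1 A σ).bdd⟩

/-- **The place at a cusp.** -/
theorem exists_place_cusp1 (hρ : ConstCompat1 ρ) (hsurj : Surjective ρ) (σ : SL(2, ℤ)) {w : ℕ}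
    (hw0 : 0 < w) (hw : σ * ModularGroup.T ^ (w : ℤ) * σ⁻¹ ∈ Gamma1 M) :
    ∃ (P : Place ℂ F) (e : ℕ), 0 < e ∧
      ∀ f : F, f ≠ 0 → ∀ (k : ℤ) (a b : ℍ → ℂ), IsRepOf1 M (ρ f : LaurentSeries ℂ) k a b →
        (((cuspOrd w (a ∣[k] σ)).toNat : ℤ) - ((cuspOrd w (b ∣[k] σ)).toNat : ℤ)) =
          e * P.ord f := by
  have : NeZero w := ⟨hw0.ne'⟩
  have hP := slashP1_cuspW (M := M) hw
  set Λ : repField1 M →+* LaurentSeries ℂ := Lmap1 (cuspHomW w) σ hP with hΛ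
  set ℓ : F →+* LaurentSeries ℂ := Λ.comp ρ with hℓ
  -- the valuation of `Λ`
  have hval : ∀ g : repField1 M, g ≠ 0 → ∀ (k : ℤ) (a b : ℍ → ℂ),
      IsRepOf1 M (g : LaurentSeries ℂ) k a b →
      log ((Valued.v : Valuation (LaurentSeries ℂ) ℤᵐ⁰) (Λ g)) =
        -(((cuspOrd w (a ∣[k] σ)).toNat : ℤ) - ((cuspOrd w (b ∣[k] σ)).toNat : ℤ)) := by
    intro g hg k a b hr
    have hg' : (g : LaurentSeries ℂ) ≠ 0 := fun h0 => hg (Subtype.ext h0)
    have ha0 : a ∣[k] σ ≠ 0 := slash_ne_zero σ (num_ne_zero_of_isRepOf1 hr hg')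
    have hb0 : b ∣[k] σ ≠ 0 := slash_ne_zero σ hr.hb0
    have hb1 : cuspExp w (b ∣[k] σ) ≠ 0 := fun h =>
      hb0 ((cuspExp_eq_zero_iff (hP k b hr.hb)).mp h)
    have h1 : Λ g = cuspExp w (a ∣[k] σ) / cuspExp w (b ∣[k] σ) :=
      Lmap1_eq_div (T := cuspHomW w) hP g hr
    rw [h1, map_div₀, valued_cuspExp (hP k a hr.ha) ha0, valued_cuspExp (hP k b hr.hb) hb0,
      ← exp_sub, log_exp]
    ring
  have hK : ∀ c : ℂ, (Valued.v : Valuation (LaurentSeries ℂ) ℤᵐ⁰) (ℓ (algebraMap ℂ F c)) ≤ 1 := by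
    intro c
    rw [hℓ, RingHom.comp_apply, hρ c, hΛ, crep1, Lmap1_const hP c (const_mem_repField1 c),
      Fermat.Agent.S24.OrbitDefs.algebraMap_eq_ofPS_C]
    by_cases h0 : PowerSeries.C c = (0 : PowerSeries ℂ)
    · rw [h0, map_zero, map_zero]
      exact zero_le
    · rw [valuation_ofPS h0, ← exp_zero, exp_le_exp]
      exact neg_nonpos.mpr (Int.natCast_nonneg _)
  have hnt : ∃ f : F, f ≠ 0 ∧ (Valued.v : Valuation (LaurentSeries ℂ) ℤᵐ⁰) (ℓ f) ≠ 1 := by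
    obtain ⟨f, hf⟩ := hsurj (jrep1 M)
    have h4 : IsCuspHol w (⇑E₄) := (isCuspHol_one_of_class E₄).of_one
    have e1 : (⇑Fermat.Agent.S24.LevelRaise.E4cube : ℍ → ℂ) = (⇑E₄ : ℍ → ℂ) ^ 3 := by
      funext z
      rw [Fermat.Agent.S24.LevelRaise.E4cube_apply, Pi.pow_apply]
    have e2 : (⇑Fermat.Agent.S24.LevelRaise.DeltaMF : ℍ → ℂ) = ModularForm.discriminant := rfl
    have h1 : Λ (jrep1 M) = (cuspExp w (⇑E₄)) ^ 3 / cuspExp w ModularForm.discriminant := by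
      have := Lmap1_levelOne (T := cuspHomW w) hP (jrep1 M) (isRepOf1_jC M)
        (IsMF.coe Fermat.Agent.S24.LevelRaise.E4cube) (IsMF.coe Fermat.Agent.S24.LevelRaise.DeltaMF)
      rw [hΛ, this]
      show cuspExp w _ / cuspExp w _ = _
      rw [e1, e2, cuspExp_pow h4]
    have h2 : (Valued.v : Valuation (LaurentSeries ℂ) ℤᵐ⁰) (ℓ f) = exp (w : ℤ) := by
      rw [hℓ, RingHom.comp_apply, hf, h1, ← inv_div, map_inv₀,
        valuation_discriminant_div_E₄_cube, ← exp_neg, neg_neg]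
    refine ⟨f, ?_, ?_⟩
    · rintro rfl
      rw [map_zero, map_zero] at h2
      exact WithZero.exp_ne_zero h2.symm
    · rw [h2, ← exp_zero, ne_eq, exp_inj]
      omega
  set P := comapPlace (K := ℂ) Valued.v ℓ hK hnt with hPdef
  obtain ⟨e, he, -, hef⟩ := exists_ramification P Valued.v ℓ rfl
  refine ⟨P, e, he, ?_⟩
  intro f hf k a b hr
  have hg : ρ f ≠ 0 := (map_ne_zero ρ).mpr hf
  have h1 := hef f hf
  rw [hℓ, RingHom.comp_apply, hval (ρ f) hg k a b hr] at h1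
  linarith

end Fermat.Agent.S48.B.Dict.PointPlace
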