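import Mathlib
import Fermat.Agent.S30.Analytic.DegreeC
import Fermat.Agent.S30.Descent.ConstExt
import Fermat.Agent.S48.B.B1.RepEq1

/-!
# PROJECT D (S48), part B, block B5 (C) C4, spare brick: the degree of `j` on `ℂ(X₁(M))` (helper27)

Twin of the `(a)`, `(b)` half of main's `S30/Analytic/DegreeC.lean`: the pair
`Seams.Deg1 M` (`j` is a separating variable of `ℚ̄(X₁(M))` of degree `[SL₂(ℤ) : ±Γ₁(M)]`) is
transported along the constant field extension `ℚ̄ ⊆ ℂ` (main's level-free `Descent.ConstExt`).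

* `isFF_finrank_jFC1` : `IsFF ℂ (jFC1 M)` and `[ℂ(X₁(M)) : ℂ(j)] = card (Q1 M)`, from `Deg1 M` alone;
* `isFF_jFC1'` : the first half (no `RepLe M` needed; `RepEq1.isFF_jFC1` has the same conclusion);
* **`finrank_jFC1`** : `[ℂ(X₁(M)) : ℂ(j)] = [SL₂(ℤ) : ±Γ₁(M)]`, the degree input of the twin of
  `AllPlacesC.dvd_ord_of_local_mk`.
-/

set_option autoImplicit false

noncomputable section

namespace Fermat.Agent.S48.B.Dict.FinrankC

open ModularCurve IntermediateField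
open Fermat.Agent.S24.FF Fermat.Agent.S24.LmapJ
open Fermat.Agent.S30.Descent.ConstExt
open Fermat.Agent.S48.B.Defs.Model
open Fermat.Agent.S48.B.B1.Seams (Q1 Deg1 jgen1)
open Fermat.Agent.S48.B.B1.RepEq1

local notation "Kb" => AlgebraicClosure ℚ

variable (M : ℕ) [NeZero M]

/-- **`(a)` + `(b)`** : `j` is a separating variable of `ℂ(X₁(M))` of degree `[SL₂(ℤ) : ±Γ₁(M)]` -/
theorem isFF_finrank_jFC1 (hdeg : Deg1 M) :
    IsFF ℂ (jFC1 M) ∧
      Module.finrank ℂ⟮jFC1 M⟯ (laurentBaseChange ℂ (F1 M)) = Nat.card (Q1 M) := by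
  let _ : Algebra Kb ℂ := Fermat.Agent.S30.Analytic.DegreeC.algC
  have h1 : IsFF ℂ (bcHom ℂ (F1Bar M) (jgen1 M)) := isFF_bcHom hdeg.1
  have hfin := hdeg.1.finite
  have h2 := (finrank_bcHom (K' := ℂ) hdeg.1.transcendental).2
  have heq : constExt ℂ (F1Bar M) = laurentBaseChange ℂ (F1 M) :=
    constExt_laurentBaseChange (K := Kb) (K' := ℂ) (F1 M)
  have hc : ((bcHom ℂ (F1Bar M) (jgen1 M) : constExt ℂ (F1Bar M)) : LaurentSeries ℂ) = jC := by
    rw [coe_bcHom, coe_jgen1, bc_coeffEmb]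
    rfl
  have hmem : ((bcHom ℂ (F1Bar M) (jgen1 M) : constExt ℂ (F1Bar M)) : LaurentSeries ℂ) ∈
      laurentBaseChange ℂ (F1 M) := by
    rw [hc]; exact jC_mem_FC1 M
  obtain ⟨h3, h4⟩ := Fermat.Agent.S30.Analytic.DegreeC.isFF_of_eq heq h1 hmem
  have hj : (⟨_, hmem⟩ : laurentBaseChange ℂ (F1 M)) = jFC1 M := Subtype.ext hc
  rw [hj] at h3 h4
  refine ⟨h3, ?_⟩
  rw [h4, h2, hdeg.2]

/-- **`(a)`** `j` is a separating variable of `ℂ(X₁(M))` (from `Deg1 M` alone) -/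
theorem isFF_jFC1' (hdeg : Deg1 M) : IsFF ℂ (jFC1 M) := (isFF_finrank_jFC1 M hdeg).1

/-- **`(b)`** `[ℂ(X₁(M)) : ℂ(j)] = [SL₂(ℤ) : ±Γ₁(M)]` -/
theorem finrank_jFC1 (hdeg : Deg1 M) :
    Module.finrank ℂ⟮jFC1 M⟯ (laurentBaseChange ℂ (F1 M)) = Nat.card (Q1 M) :=
  (isFF_finrank_jFC1 M hdeg).2

end Fermat.Agent.S48.B.Dict.FinrankC

end
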