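import Mathlib
import Fermat.Agent.S24.LaurentPt
import Fermat.Agent.S24.LaurentCusp
import Fermat.Agent.S30.Analytic.TwistedEisQuot
import Fermat.Agent.S48.B.B1.Seams
import Fermat.Agent.S48.B.B1.RepHom1
import Fermat.Agent.S48.B.B1.LaurentPt1
import Fermat.Agent.S48.B.B1.LaurentCusp1
import Fermat.Agent.S48.B.B1.Orbits1Cusp

/-!
# PROJECT D (S48), part B, block B5 (C) C3: the modular function `g_ψ = (E_ψ / E₄) ^ n` on `X₁(M)`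
(helper29)

Twin of `S30/Analytic/TwistedDivisor.lean` for a character `ψ` of `Γ₁(M)`.  The twisted Eisenstein
series `TwistedEis.E ψ 4` of main is generic in the subgroup and is reused as it is.

New with respect to the `Γ₀` original: the places of `X₁(M)` are indexed by
`Q1 M = SL(2, ℤ) ⧸ ±Γ₁(M)`, so the stabiliser hypotheses read `γ σ γ⁻¹ ∈ PG1 M`, and the character
has to kill whichever of `± γ σ γ⁻¹` lies in `Γ₁(M)` (`KillsConj`); the weight `4` being even, `-1`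
acts trivially on `E_ψ`.
-/

set_option autoImplicit false
set_option linter.unusedSectionVars false

noncomputable section

namespace Fermat.Agent.S48.B.Dict.TwistedDivisor

open UpperHalfPlane CongruenceSubgroup ModularForm WithZero
open Fermat.Agent.S20 Fermat.Agent.S23.QRing Fermat.Agent.S24.Taylor
  Fermat.Agent.S24.TaylorInv Fermat.Agent.S24.LaurentCusp
open Fermat.Agent.S24.RepHom (mdiff_slash slash_ne_zero ofPS_injective ofPS)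
open Fermat.Agent.S24.LaurentPt (ordAt ordAt_slash)
open Fermat.Agent.S30.Analytic
open Fermat.Agent.S48.B.B1.Seams hiding ofPS
open Fermat.Agent.S48.B.B1.RepHom1 Fermat.Agent.S48.B.B1.LaurentPt1
  Fermat.Agent.S48.B.B1.LaurentCusp1 Fermat.Agent.S48.B.B1.Orbits1Cusp

open scoped MatrixGroups ModularForm Manifold

variable {M : ℕ} [NeZero M]

/-! ### quotients of forms as elements of `repField1 M` -/

theorem ofPS_qx_ne_zero1 {k : ℤ} {b : ℍ → ℂ} (hb : IsMF (G1 M) k b) (hb0 : b ≠ 0) :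
    ofPS (qx b) ≠ 0 := by
  intro h0
  have : qx b = 0 := ofPS_injective (by rw [h0, map_zero])
  exact hb0 ((qx_eq_zero_iff (isQ_of_isMF1 hb)).mp this)

theorem isRepOf1_div {k : ℤ} {a b : ℍ → ℂ} (ha : IsMF (G1 M) k a) (hb : IsMF (G1 M) k b)
    (hb0 : b ≠ 0) : IsRepOf1 M (ofPS (qx a) / ofPS (qx b)) k a b where
  ha := ha
  hb := hb
  hb0 := hb0
  eq := by rw [div_mul_cancel₀ _ (ofPS_qx_ne_zero1 hb hb0)]

/-- the quotient `a / b` of two forms of the same weight as an element of `repField1 M` -/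
def quot1 {k : ℤ} {a b : ℍ → ℂ} (ha : IsMF (G1 M) k a) (hb : IsMF (G1 M) k b) (hb0 : b ≠ 0) :
    repField1 M :=
  ⟨ofPS (qx a) / ofPS (qx b), k, a, b, isRepOf1_div ha hb hb0⟩

theorem isRepOf1_quot1 {k : ℤ} {a b : ℍ → ℂ} (ha : IsMF (G1 M) k a) (hb : IsMF (G1 M) k b)
    (hb0 : b ≠ 0) : IsRepOf1 M ((quot1 ha hb hb0 : repField1 M) : LaurentSeries ℂ) k a b :=
  isRepOf1_div ha hb hb0

theorem quot1_ne_zero {k : ℤ} {a b : ℍ → ℂ} (ha : IsMF (G1 M) k a) (hb : IsMF (G1 M) k b)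
    (hb0 : b ≠ 0) (ha0 : a ≠ 0) : quot1 ha hb hb0 ≠ 0 := by
  intro h
  have h1 : ((quot1 ha hb hb0 : repField1 M) : LaurentSeries ℂ) = 0 := by rw [h]; rfl
  have h2 : ofPS (qx a) / ofPS (qx b) = 0 := h1
  rw [div_eq_zero_iff] at h2
  rcases h2 with h2 | h2
  · exact ofPS_qx_ne_zero1 ha ha0 h2
  · exact ofPS_qx_ne_zero1 hb hb0 h2

/-! ### the forms `E_ψ ^ n` and `E₄ ^ n` -/

variable (ψ : Gamma1 M →* ℂˣ)

theorem isMF_E_pow1 (hψ : ∀ g : Gamma1 M, (g : SL(2, ℤ)) 1 0 = 0 → ψ g = 1) {n : ℕ} (hn : n ≠ 0)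
    (hψn : ψ ^ n = 1) : IsMF (G1 M) (4 * n) (TwistedEis.E ψ 4 ^ n) :=
  ⟨TwistedEisQuot.powMF ψ hψ (by norm_num) (TwistedEisQuot.norm_eq_one_of_pow_eq_one ψ hn hψn)
    n hψn, rfl⟩

theorem G1_le_SL' (M : ℕ) : G1 M ≤ 𝒮ℒ :=
  Subgroup.map_le_range (Matrix.SpecialLinearGroup.mapGL ℝ) (Gamma1 M)

theorem isMF_E₄_pow1 (n : ℕ) : IsMF (G1 M) (4 * n) ((ModularForm.E₄ : ℍ → ℂ) ^ n) :=
  ((IsMF.mono (G1_le_SL' M) (IsMF.coe ModularForm.E₄)).pow n).cast (mul_comm _ _)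

/-! ### the modular function `g_ψ = (E_ψ / E₄) ^ n` -/

theorem E₄_fun_ne_zero : (⇑ModularForm.E₄ : ℍ → ℂ) ≠ 0 := fun h =>
  EisensteinSeries.E_ne_zero (by norm_num : 3 ≤ 4) ⟨2, rfl⟩ (DFunLike.coe_injective h)

theorem E₄_pow_ne_zero (n : ℕ) : ((ModularForm.E₄ : ℍ → ℂ) ^ n) ≠ 0 := by
  obtain ⟨z, hz⟩ : ∃ z, (⇑ModularForm.E₄ : ℍ → ℂ) z ≠ 0 := by
    by_contra hcon
    exact E₄_fun_ne_zero (funext fun τ => by_contra fun h => hcon ⟨τ, h⟩)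
  intro h
  have := congrFun h z
  rw [Pi.pow_apply, Pi.zero_apply] at this
  exact pow_ne_zero n hz this

/-- the standing hypotheses on the character `ψ` of `Γ₁(M)` -/
structure Hyp1 (ψ : Gamma1 M →* ℂˣ) (n : ℕ) : Prop where
  hn : n ≠ 0
  pow_eq_one : ψ ^ n = 1
  infty : ∀ g : Gamma1 M, (g : SL(2, ℤ)) 1 0 = 0 → ψ g = 1

variable {ψ} {n : ℕ}

theorem Hyp1.norm (h : Hyp1 ψ n) (g : Gamma1 M) : ‖((ψ g : ℂˣ) : ℂ)‖ = 1 :=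
  TwistedEisQuot.norm_eq_one_of_pow_eq_one ψ h.hn h.pow_eq_one g

theorem Hyp1.mdiff (h : Hyp1 ψ n) : MDiff (TwistedEis.E ψ 4) :=
  TwistedEis.mdifferentiable_E ψ (by norm_num) h.norm

theorem Hyp1.E_ne_zero (h : Hyp1 ψ n) : TwistedEis.E ψ 4 ≠ 0 :=
  TwistedEis.E_ne_zero ψ (by norm_num) ⟨2, rfl⟩ h.norm h.infty

theorem Hyp1.E_pow_ne_zero (h : Hyp1 ψ n) : TwistedEis.E ψ 4 ^ n ≠ 0 := by
  obtain ⟨z, hz⟩ := TwistedEis.exists_E_ne_zero ψ (k := 4) (by norm_num) ⟨2, rfl⟩ h.norm h.infty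
  intro h0
  have := congrFun h0 z
  rw [Pi.pow_apply, Pi.zero_apply] at this
  exact pow_ne_zero n hz this

/-- **the modular function `g_ψ = (E_ψ / E₄) ^ n`** as an element of `repField1 M` -/
def gfun1 (h : Hyp1 ψ n) : repField1 M :=
  quot1 (isMF_E_pow1 ψ h.infty h.hn h.pow_eq_one) (isMF_E₄_pow1 n) (E₄_pow_ne_zero n)

theorem isRepOf1_gfun1 (h : Hyp1 ψ n) :
    IsRepOf1 M ((gfun1 h : repField1 M) : LaurentSeries ℂ) (4 * n) (TwistedEis.E ψ 4 ^ n)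
      ((ModularForm.E₄ : ℍ → ℂ) ^ n) :=
  isRepOf1_quot1 _ _ _

theorem gfun1_ne_zero (h : Hyp1 ψ n) : gfun1 h ≠ 0 :=
  quot1_ne_zero _ _ _ h.E_pow_ne_zero

/-! ### orders of powers -/

theorem ordAt_pow (τ : ℍ) {f : ℍ → ℂ} (hf : MDiff f) (m : ℕ) :
    ordAt τ (f ^ m) = m * ordAt τ f := by
  rw [ordAt, ordAt, taylorAt_pow τ hf, PowerSeries.order_pow]
  rcases eq_or_ne (taylorAt τ f).order ⊤ with h | h
  · rw [h]
    rcases Nat.eq_zero_or_pos m with rfl | hm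
    · simp
    · rw [show (m • (⊤ : ℕ∞)) = ⊤ from by
        rw [nsmul_eq_mul]; exact ENat.mul_top (by exact_mod_cast hm.ne')]
      simp
  · obtain ⟨d, hd⟩ := ENat.ne_top_iff_exists.mp h
    rw [← hd, nsmul_eq_mul]
    have : ((m : ℕ∞) * (d : ℕ∞)) = ((m * d : ℕ) : ℕ∞) := by push_cast; rfl
    rw [this, ENat.toNat_natCast, ENat.toNat_natCast]
    push_cast
    rfl

/-! ### the valuations of `g_ψ` at the point homomorphisms -/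

theorem mdiff_E₄ : MDiff (⇑ModularForm.E₄ : ℍ → ℂ) := ModularForm.E₄.holo'

/-- **valuation at the points**: `v (Lpt1 M τ γ g_ψ) = exp (- n (ord_P E_ψ - ord_P E₄))`,
`P = γ • τ`. -/
theorem valuation_Lpt1_gfun1 (h : Hyp1 ψ n) (τ : ℍ) (γ : SL(2, ℤ)) :
    Valued.v (Lpt1 M τ γ (gfun1 h)) =
      exp (-((n : ℤ) * (ordAt (γ • τ) (TwistedEis.E ψ 4) - ordAt (γ • τ) ⇑ModularForm.E₄))) := by
  rw [valuation_Lpt1_smul τ γ (gfun1_ne_zero h) (isRepOf1_gfun1 h), ordAt_pow _ h.mdiff,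
    ordAt_pow _ mdiff_E₄, mul_sub]

theorem log_valuation_Lpt1_gfun1 (h : Hyp1 ψ n) (τ : ℍ) (γ : SL(2, ℤ)) :
    log (Valued.v (Lpt1 M τ γ (gfun1 h))) =
      -((n : ℤ) * (ordAt (γ • τ) (TwistedEis.E ψ 4) - ordAt (γ • τ) ⇑ModularForm.E₄)) := by
  rw [valuation_Lpt1_gfun1, log_exp]

/-! ### stabilisers: divisibility of the orders -/

/-- `ψ` kills whichever of `± x` lies in `Γ₁(M)` -/
def KillsConj (ψ : Gamma1 M →* ℂˣ) (x : SL(2, ℤ)) : Prop :=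
  ∀ δ : Gamma1 M, ((δ : SL(2, ℤ)) = x ∨ (δ : SL(2, ℤ)) = -x) → ψ δ = 1

theorem E_slash_neg (γ : SL(2, ℤ)) :
    TwistedEis.E ψ 4 ∣[(4 : ℤ)] (-γ) = TwistedEis.E ψ 4 ∣[(4 : ℤ)] γ := by
  rw [slash_neg_mul]
  have : ((-1 : ℂ) ^ (-(4 : ℤ))) = 1 := by norm_num
  rw [this, one_smul]

/-- translates of `E_ψ` by `γ` are invariant under `σ` when `γ σ γ⁻¹ ∈ ±Γ₁(M)` is killed by `ψ` -/
theorem slash_slash_of_conj1 (h : Hyp1 ψ n) {γ σ : SL(2, ℤ)} (hσ : γ * σ * γ⁻¹ ∈ PG1 M)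
    (hψσ : KillsConj ψ (γ * σ * γ⁻¹)) :
    (TwistedEis.E ψ 4 ∣[(4 : ℤ)] γ) ∣[(4 : ℤ)] σ = TwistedEis.E ψ 4 ∣[(4 : ℤ)] γ := by
  rw [← SlashAction.slash_mul]
  rcases mem_PG1_iff.mp hσ with h1 | h1
  · have e : γ * σ = (γ * σ * γ⁻¹) * γ := by group
    rw [e, SlashAction.slash_mul]
    have h2 := TwistedEis.E_slash (k := 4) ψ h.infty ⟨γ * σ * γ⁻¹, h1⟩
    rw [hψσ ⟨γ * σ * γ⁻¹, h1⟩ (Or.inl rfl), Units.val_one, one_smul] at h2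
    rw [show (γ * σ * γ⁻¹ : SL(2, ℤ)) = ((⟨γ * σ * γ⁻¹, h1⟩ : Gamma1 M) : SL(2, ℤ)) from rfl, h2]
  · have e : γ * σ = -((-(γ * σ * γ⁻¹)) * γ) := by
      rw [neg_mul, neg_neg]
      group
    rw [e, E_slash_neg, SlashAction.slash_mul]
    have h2 := TwistedEis.E_slash (k := 4) ψ h.infty ⟨-(γ * σ * γ⁻¹), h1⟩
    rw [hψσ ⟨-(γ * σ * γ⁻¹), h1⟩ (Or.inr rfl), Units.val_one, one_smul] at h2
    rw [show (-(γ * σ * γ⁻¹) : SL(2, ℤ)) = ((⟨-(γ * σ * γ⁻¹), h1⟩ : Gamma1 M) : SL(2, ℤ)) from rfl,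
      h2]

theorem E₄_slash (γ : SL(2, ℤ)) :
    (⇑ModularForm.E₄ : ℍ → ℂ) ∣[(4 : ℤ)] γ = ⇑ModularForm.E₄ :=
  SlashInvariantFormClass.slash_action_eq ModularForm.E₄
    (Matrix.SpecialLinearGroup.mapGL ℝ γ) ⟨γ, rfl⟩

/-- the cross relation for the pair `(E_ψ ∣ γ, E₄)` under `σ` -/
theorem cross_of_conj1 (h : Hyp1 ψ n) {γ σ : SL(2, ℤ)} (hσ : γ * σ * γ⁻¹ ∈ PG1 M)
    (hψσ : KillsConj ψ (γ * σ * γ⁻¹)) (z : ℍ) :
    (TwistedEis.E ψ 4 ∣[(4 : ℤ)] γ) (σ • z) * (⇑ModularForm.E₄ : ℍ → ℂ) z =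
      (TwistedEis.E ψ 4 ∣[(4 : ℤ)] γ) z * (⇑ModularForm.E₄ : ℍ → ℂ) (σ • z) := by
  have h1 := congrFun (slash_slash_of_conj1 h hσ hψσ) z
  have h2 := congrFun (E₄_slash σ) z
  rw [ModularForm.SL_slash_apply] at h1 h2
  rw [← h1, ← h2]
  ring

theorem E_slash_ne_zero (h : Hyp1 ψ n) (γ : SL(2, ℤ)) : TwistedEis.E ψ 4 ∣[(4 : ℤ)] γ ≠ 0 :=
  slash_ne_zero γ h.E_ne_zero

/-- the bracket `m_P = ord_P E_ψ - ord_P E₄` (so that `log v (Lpt1 M τ γ g_ψ) = - n m_{γ τ}`) -/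
def mpt1 (ψ : Gamma1 M →* ℂˣ) (P : ℍ) : ℤ :=
  ordAt P (TwistedEis.E ψ 4) - ordAt P ⇑ModularForm.E₄

theorem log_valuation_Lpt1_gfun1' (h : Hyp1 ψ n) (τ : ℍ) (γ : SL(2, ℤ)) :
    log (Valued.v (Lpt1 M τ γ (gfun1 h))) = -((n : ℤ) * mpt1 ψ (γ • τ)) :=
  log_valuation_Lpt1_gfun1 h τ γ

theorem mpt1_smul (h : Hyp1 ψ n) (τ : ℍ) (γ : SL(2, ℤ)) :
    mpt1 ψ (γ • τ) = ordAt τ (TwistedEis.E ψ 4 ∣[(4 : ℤ)] γ) - ordAt τ ⇑ModularForm.E₄ := by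
  rw [mpt1, ← ordAt_slash h.mdiff 4 γ τ, ← ordAt_slash mdiff_E₄ 4 γ τ, E₄_slash]

/-- **elliptic points**: if `σ` fixes `τ` and `ψ` kills `± γ σ γ⁻¹`, then
`(denom σ τ) ^ (2 m_{γ τ}) = 1`. -/
theorem denom_zpow_mpt1 (h : Hyp1 ψ n) {γ σ : SL(2, ℤ)} (hσ : γ * σ * γ⁻¹ ∈ PG1 M)
    (hψσ : KillsConj ψ (γ * σ * γ⁻¹)) {τ : ℍ} (hfix : σ • τ = τ) :
    (denom (σ : GL (Fin 2) ℝ) τ) ^ (2 * mpt1 ψ (γ • τ)) = 1 := by
  rw [mpt1_smul h]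
  exact denom_zpow_eq_one_of_invariant (mdiff_slash γ h.mdiff) mdiff_E₄ (E_slash_ne_zero h γ)
    E₄_fun_ne_zero σ τ hfix (cross_of_conj1 h hσ hψσ)

open Fermat.Agent.LevelOne.JBasic in
/-- at `i`: if `γ S γ⁻¹ ∈ ±Γ₁(M)` is killed by `ψ`, then `2 ∣ m_{γ i}` -/
theorem two_dvd_mpt1 (h : Hyp1 ψ n) {γ : SL(2, ℤ)} (hσ : γ * ModularGroup.S * γ⁻¹ ∈ PG1 M)
    (hψσ : KillsConj ψ (γ * ModularGroup.S * γ⁻¹)) : (2 : ℤ) ∣ mpt1 ψ (γ • UpperHalfPlane.I) := by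
  rw [mpt1_smul h]
  exact two_dvd_of_S_invariant (mdiff_slash γ h.mdiff) mdiff_E₄ (E_slash_ne_zero h γ)
    E₄_fun_ne_zero (cross_of_conj1 h hσ hψσ)

open Fermat.Agent.LevelOne.JBasic in
/-- at `ρ`: if `γ (S T) γ⁻¹ ∈ ±Γ₁(M)` is killed by `ψ`, then `3 ∣ m_{γ ρ}` -/
theorem three_dvd_mpt1 (h : Hyp1 ψ n) {γ : SL(2, ℤ)}
    (hσ : γ * (ModularGroup.S * ModularGroup.T) * γ⁻¹ ∈ PG1 M)
    (hψσ : KillsConj ψ (γ * (ModularGroup.S * ModularGroup.T) * γ⁻¹)) :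
    (3 : ℤ) ∣ mpt1 ψ (γ • rho) := by
  rw [mpt1_smul h]
  exact three_dvd_of_ST_invariant (mdiff_slash γ h.mdiff) mdiff_E₄ (E_slash_ne_zero h γ)
    E₄_fun_ne_zero (cross_of_conj1 h hσ hψσ)

/-! ### cusps -/

/-- `ψ` is trivial on whichever of `± γ T^m γ⁻¹` lies in `Γ₁(M)` -/
def ParConj1 (ψ : Gamma1 M →* ℂˣ) : Prop :=
  ∀ (γ : SL(2, ℤ)) (m : ℤ), KillsConj ψ (γ * ModularGroup.T ^ m * γ⁻¹)

theorem periodic_E_slash1 (h : Hyp1 ψ n) (hpar : ParConj1 ψ) (γ : SL(2, ℤ)) {w : ℕ}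
    (hw : γ * ModularGroup.T ^ (w : ℤ) * γ⁻¹ ∈ PG1 M) :
    Function.Periodic ((TwistedEis.E ψ 4 ∣[(4 : ℤ)] γ) ∘ ofComplex) (w : ℝ) :=
  periodic_of_slash_T_zpow (slash_slash_of_conj1 h hw (hpar γ w))

theorem isCuspHol_E_slash1 (h : Hyp1 ψ n) (hpar : ParConj1 ψ) (γ : SL(2, ℤ)) :
    IsCuspHol M (TwistedEis.E ψ 4 ∣[(4 : ℤ)] γ) where
  hol := mdiff_slash γ h.mdiff
  per := periodic_E_slash1 h hpar γ (conj_T_pow_mem_PG1 M γ)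
  bdd := TwistedEis.isBoundedAtImInfty_E_slash ψ (by norm_num) h.norm γ

theorem isCuspHol_E₄ : IsCuspHol M (⇑ModularForm.E₄ : ℍ → ℂ) :=
  (isCuspHol_one_of_class ModularForm.E₄).of_one

theorem cuspExp_E_slash_ne_zero1 (h : Hyp1 ψ n) (hpar : ParConj1 ψ) (γ : SL(2, ℤ)) :
    cuspExp M (TwistedEis.E ψ 4 ∣[(4 : ℤ)] γ) ≠ 0 := fun h0 =>
  E_slash_ne_zero h γ ((cuspExp_eq_zero_iff (isCuspHol_E_slash1 h hpar γ)).mp h0)

/-- the bracket at the cusp `γ ∞`: the `q_M`-order of `E_ψ ∣ γ` -/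
def mcusp1 (ψ : Gamma1 M →* ℂˣ) (γ : SL(2, ℤ)) : ℤ :=
  (cuspExp M (TwistedEis.E ψ 4 ∣[(4 : ℤ)] γ)).order

/-- **expansion at the cusps**: `Λrep1 γ g_ψ = (cuspExp (E_ψ ∣ γ) / cuspExp E₄) ^ n` -/
theorem Λrep1_gfun1 (h : Hyp1 ψ n) (hpar : ParConj1 ψ) (γ : SL(2, ℤ)) :
    Λrep1 M γ (gfun1 h) =
      (cuspExp M (TwistedEis.E ψ 4 ∣[(4 : ℤ)] γ) / cuspExp M (⇑ModularForm.E₄ : ℍ → ℂ)) ^ n := by
  rw [Λrep1_eq_div M γ (gfun1 h) (isRepOf1_gfun1 h), mul_comm (4 : ℤ) (n : ℤ), Character.pow_slash,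
    Character.pow_slash, E₄_slash, cuspExp_pow (isCuspHol_E_slash1 h hpar γ),
    cuspExp_pow isCuspHol_E₄, div_pow]

/-- **valuation at the cusps**: `log v (Λrep1 γ g_ψ) = - n * (q_M-order of E_ψ ∣ γ)` -/
theorem log_valuation_Λrep1_gfun1 (h : Hyp1 ψ n) (hpar : ParConj1 ψ) (γ : SL(2, ℤ)) :
    log (Valued.v (Λrep1 M γ (gfun1 h))) = -((n : ℤ) * mcusp1 ψ γ) := by
  have h1 : cuspExp M (TwistedEis.E ψ 4 ∣[(4 : ℤ)] γ) / cuspExp M (⇑ModularForm.E₄ : ℍ → ℂ) ≠ 0 :=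
    div_ne_zero (cuspExp_E_slash_ne_zero1 h hpar γ) cuspExp_E₄_ne_zero
  rw [Λrep1_gfun1 h hpar, log_valuation_eq (pow_ne_zero n h1), HahnSeries.order_pow,
    order_div_eq (cuspExp_E_slash_ne_zero1 h hpar γ) cuspExp_E₄_ne_zero, order_cuspExp_E₄,
    sub_zero, mcusp1, nsmul_eq_mul]

/-- **divisibility at the cusps**: if `γ T^w γ⁻¹ ∈ ±Γ₁(M)`, `w d = M`, then `d ∣ m_γ`
(the order in the true local parameter `q_w = q_M ^ d` is `m_γ / d`). -/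
theorem dvd_mcusp1 (h : Hyp1 ψ n) (hpar : ParConj1 ψ) (γ : SL(2, ℤ)) {w d : ℕ} (hM : w * d = M)
    (hw0 : 0 < w) (hw : γ * ModularGroup.T ^ (w : ℤ) * γ⁻¹ ∈ PG1 M) :
    (d : ℤ) ∣ mcusp1 ψ γ :=
  dvd_order_cuspExp_of_period hM hw0 (mdiff_slash γ h.mdiff) (periodic_E_slash1 h hpar γ hw)
    (TwistedEis.isBoundedAtImInfty_E_slash ψ (by norm_num) h.norm γ)

theorem mcusp1_nonneg (γ : SL(2, ℤ)) : 0 ≤ mcusp1 ψ γ := by
  rw [mcusp1]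
  set x := cuspExp M (TwistedEis.E ψ 4 ∣[(4 : ℤ)] γ) with hx
  by_cases h0 : x = 0
  · rw [h0, HahnSeries.order_zero]
  · by_contra hneg
    have h1 : x.coeff x.order ≠ 0 := fun h => h0 (HahnSeries.coeff_order_eq_zero.mp h)
    rw [hx, coeff_cuspExp, if_pos (not_le.mp hneg)] at h1
    exact h1 rfl

/-! ### the root character of `g_ψ` -/

/-- **`ψ` is the root character of the pair `(E_ψ ^ n, E₄ ^ n)`** in the normalisation of the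
dictionary: `F = a * b ^ (n - 1)`, weight `n * (4 n)`. -/
theorem isRootChar_gfun1 (h : Hyp1 ψ n) :
    Character.IsRootChar (Gamma1 M) n (4 * n)
      ((TwistedEis.E ψ 4 ^ n) * ((⇑ModularForm.E₄ : ℍ → ℂ) ^ n) ^ (n - 1)) ψ := by
  refine ⟨TwistedEis.E ψ 4 * (⇑ModularForm.E₄ : ℍ → ℂ) ^ (n - 1), h.mdiff.mul (mdiff_E₄.pow _), ?_,
    ?_⟩
  · rw [mul_pow, ← pow_mul, ← pow_mul, mul_comm (n - 1) n]
  · have h1 := TwistedEisQuot.hasChar_E ψ h.infty 4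
    have h2 : Character.HasChar (Gamma1 M) 4 (⇑ModularForm.E₄ : ℍ → ℂ) 1 :=
      Character.hasChar_one_iff.mpr fun γ _ => E₄_slash γ
    have h4 : (1 : Gamma1 M →* ℂˣ) ^ (n - 1) = 1 := by
      ext g
      simp
    have h5 : ψ * (1 : Gamma1 M →* ℂˣ) = ψ := by
      ext g
      simp
    have h3 := h1.mul (h2.pow (n - 1))
    rw [h4, h5] at h3
    refine h3.cast ?_
    have hn1 : 1 ≤ n := Nat.one_le_iff_ne_zero.mpr h.hn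
    push_cast [Nat.cast_sub hn1]
    ring

end Fermat.Agent.S48.B.Dict.TwistedDivisor

end
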