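import Mathlib
import Fermat.Agent.S30.Analytic.TwistedSurj
import Fermat.Agent.S48.B.Defs.Spec
import Fermat.Agent.S48.B.B1.RepEq1
import Fermat.Agent.S48.B.B1.Count1.Free
import Fermat.Agent.S48.B.Dict.TwistedDivisor

/-!
# PROJECT D (S48), part B, block B5 (C) C3: surjectivity of the analytic dictionary of `X₁(M)`,
modulo the place dictionary (helper29)

Twin of `S30/Analytic/TwistedSurj.lean`.

* `hyp1_of_isParChar1`, `parConj1_of_isParChar1` : the hypotheses of `TwistedDivisor` from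
  `ψ ∈ Spec.charGroup1 M`;
* `gFC1` : the function `g_ψ = (E_ψ / E₄) ^ n` as an element of `FC1 M` (through `Seams.RepEq M`);
* **`exists_isPsiOf1_of_dvd`** : if `n ∣ ord_v g_ψ` for every place `v` of `FC1 M`, then `ψ` is in
  the image of the dictionary: `∃ x, Spec.IsPsiOf1 M x ψ`;
* `LocalGlobal1 M` : the shape of the local-global principle for the places of `FC1 M` (twin of the
  conclusion of `AllPlacesC.dvd_ord_of_local_mk`, index set `Q1 M = SL(2, ℤ) ⧸ ±Γ₁(M)`);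
* **`psiDict1_surj_of_localGlobal`** : `PsiDict1.surj` from `Deg1 M`, `RepLe M`, `LocalGlobal1 M`,
  for `4 ≤ M` (no elliptic points: the elliptic clauses are vacuous, `Count1.Free`), and in general
  for characters trivial on the torsion (`IsEllFree1`).
-/

set_option autoImplicit false
set_option linter.unusedSectionVars false

noncomputable section

namespace Fermat.Agent.S48.B.Dict.TwistedSurj

open UpperHalfPlane CongruenceSubgroup ModularForm AlgebraicCurve ModularCurve WithZero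
open Fermat.Agent.S20 Fermat.Agent.S30.Analytic
open Fermat.Agent.S30.Analytic.TwistedSurj (trace_sq_of_bot_zero trace_conj_T_zpow S_pow_four
  ST_pow_six)
open Fermat.Agent.S48.B.Defs.Model Fermat.Agent.S48.B.Defs.Spec
open Fermat.Agent.S48.B.B1.Seams (PG1 Q1 Deg1 RepLe RepEq)
open Fermat.Agent.S48.B.B1.RepHom1 Fermat.Agent.S48.B.B1.RepEq1 Fermat.Agent.S48.B.B1.LaurentPt1
  Fermat.Agent.S48.B.B1.Orbits1Cusp Fermat.Agent.S48.B.Dict.TwistedDivisor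

open scoped MatrixGroups ModularForm Manifold

variable {M : ℕ} [NeZero M]

/-! ### the hypotheses of `TwistedDivisor` from `ψ ∈ charGroup1 M` -/

variable {ψ : Gamma1 M →* ℂˣ} {n : ℕ}

theorem hyp1_of_isParChar1 (hpar : IsParChar1 ψ) (hn : n ≠ 0) (hψn : ψ ^ n = 1) : Hyp1 ψ n where
  hn := hn
  pow_eq_one := hψn
  infty g hg := hpar g (trace_sq_of_bot_zero _ hg)

theorem parConj1_of_isParChar1 (hpar : IsParChar1 ψ) : ParConj1 ψ := by
  intro γ m δ hδ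
  apply hpar δ
  rcases hδ with h | h
  · rw [h, trace_conj_T_zpow]; norm_num
  · rw [h, Matrix.SpecialLinearGroup.coe_neg, Matrix.trace_neg, trace_conj_T_zpow]; norm_num

/-- `ψ` is trivial on the elements of finite order of `Γ₁(M)` (automatic for `M ≥ 4`, where there
are none besides `1`) -/
def IsEllFree1 (ψ : Gamma1 M →* ℂˣ) : Prop := ∀ g : Gamma1 M, IsOfFinOrder g → ψ g = 1

theorem killsConj_of_isEllFree1 (hell : IsEllFree1 ψ) {γ σ : SL(2, ℤ)} {m : ℕ} (hm : 0 < m)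
    (hσ : σ ^ m = 1) : KillsConj ψ (γ * σ * γ⁻¹) := by
  have hx : (γ * σ * γ⁻¹) ^ m = 1 := by rw [conj_pow, hσ, mul_one, mul_inv_cancel]
  intro δ hδ
  apply hell δ
  rw [isOfFinOrder_iff_pow_eq_one]
  rcases hδ with h | h
  · refine ⟨m, hm, Subtype.ext ?_⟩
    rw [SubmonoidClass.coe_pow, Subgroup.coe_one, h, hx]
  · refine ⟨2 * m, by omega, Subtype.ext ?_⟩
    rw [SubmonoidClass.coe_pow, Subgroup.coe_one, h, pow_mul, neg_sq, ← pow_mul, mul_comm, pow_mul,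
      hx, one_pow]

/-! ### the function `g_ψ` in `FC1 M` and the surjectivity statement -/

/-- `g_ψ = (E_ψ / E₄) ^ n` as an element of `FC1 M` -/
def gFC1 (heq : RepEq M) (h : Hyp1 ψ n) : FC1 M := repFieldEquiv1 heq (gfun1 h)

theorem coe_gFC1 (heq : RepEq M) (h : Hyp1 ψ n) :
    ((gFC1 heq h : FC1 M) : LaurentSeries ℂ) = ((gfun1 h : repField1 M) : LaurentSeries ℂ) := rfl

theorem gFC1_ne_zero (heq : RepEq M) (h : Hyp1 ψ n) : gFC1 heq h ≠ 0 :=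
  (map_ne_zero (repFieldEquiv1 heq)).mpr (gfun1_ne_zero h)

theorem symm_gFC1 (heq : RepEq M) (h : Hyp1 ψ n) :
    (repFieldEquiv1 heq).symm (gFC1 heq h) = gfun1 h :=
  (repFieldEquiv1 heq).symm_apply_apply _

/-- the two spellings of "represented by a pair of forms on `Γ₁(M)`" (B1's and B5's) agree -/
theorem spec_isRepOf1 {g : LaurentSeries ℂ} {k : ℤ} {a b : ℍ → ℂ}
    (h : Fermat.Agent.S48.B.B1.Seams.IsRepOf1 M g k a b) :
    Fermat.Agent.S48.B.Defs.Spec.IsRepOf1 M g k a b :=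
  ⟨h.ha, h.hb, h.hb0, h.eq⟩

/-- **Surjectivity modulo the place dictionary**: if `n` divides the order of `g_ψ` at every place
of `FC1 M`, then `ψ` is in the image of the analytic dictionary. -/
theorem exists_isPsiOf1_of_dvd (heq : RepEq M) (hPD : HasPrincipalDivisors ℂ (FC1 M))
    (h : Hyp1 ψ n) (hdvd : ∀ v : Place ℂ (FC1 M), (n : ℤ) ∣ v.ord (gFC1 heq h)) :
    ∃ x, IsPsiOf1 M x ψ := by
  classical
  obtain ⟨D₀, hD₀, hdeg₀⟩ := hPD.exists_divisor (gFC1 heq h) (gFC1_ne_zero heq h)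
  have hn0 : (n : ℤ) ≠ 0 := by exact_mod_cast h.hn
  set D : Divisor ℂ (FC1 M) := D₀.mapRange (fun m : ℤ => m / (n : ℤ)) (Int.zero_ediv _) with hD
  have hDv : ∀ v : Place ℂ (FC1 M), (n : ℤ) * D v = v.ord (gFC1 heq h) := by
    intro v
    rw [hD, Finsupp.mapRange_apply, hD₀ v]
    exact Int.mul_ediv_cancel' (hdvd v)
  have hnD : (n : ℤ) • D = D₀ := by
    ext v
    rw [Finsupp.smul_apply, smul_eq_mul, hDv v, hD₀ v]
  have hdeg : Divisor.degree D = 0 := by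
    have h1 : (n : ℤ) • Divisor.degree D = 0 := by rw [← map_zsmul, hnD, hdeg₀]
    rw [smul_eq_mul] at h1
    exact (mul_eq_zero.mp h1).resolve_left hn0
  refine ⟨Pic0.mk ⟨D, hdeg⟩, n, ⟨D, hdeg⟩, gFC1 heq h, 4 * n, TwistedEis.E ψ 4 ^ n,
    (⇑ModularForm.E₄ : ℍ → ℂ) ^ n, h.hn, gFC1_ne_zero heq h, rfl, hDv, ?_, isRootChar_gfun1 h⟩
  rw [coe_gFC1]
  exact spec_isRepOf1 (isRepOf1_gfun1 h)

/-! ### the four local divisibility statements for `g_ψ` -/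

/-- generic points: `n ∣ log v (L_{τ, γ} g_ψ)` -/
theorem dvd_log_Lpt1_gfun1 (h : Hyp1 ψ n) (τ : ℍ) (γ : SL(2, ℤ)) :
    (n : ℤ) ∣ log (Valued.v (Lpt1 M τ γ (gfun1 h))) := by
  rw [log_valuation_Lpt1_gfun1' h τ γ]
  exact (Dvd.intro _ rfl).neg_right

open Fermat.Agent.LevelOne.JBasic in
/-- over `i`: `2 n ∣ log v (L_{i, γ} g_ψ)` when `γ S γ⁻¹ ∈ ±Γ₁(M)` (`ψ` trivial on torsion) -/
theorem dvd_log_Lpt1_gfun1_I (h : Hyp1 ψ n) (hell : IsEllFree1 ψ) (γ : SL(2, ℤ))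
    (hσ : γ * ModularGroup.S * γ⁻¹ ∈ PG1 M) :
    (2 * n : ℤ) ∣ log (Valued.v (Lpt1 M UpperHalfPlane.I γ (gfun1 h))) := by
  rw [log_valuation_Lpt1_gfun1' h _ γ]
  obtain ⟨c, hc⟩ := two_dvd_mpt1 h hσ (killsConj_of_isEllFree1 hell (by norm_num) S_pow_four)
  rw [hc]
  exact (Dvd.intro c (by ring)).neg_right

open Fermat.Agent.LevelOne.JBasic in
/-- over `ρ`: `3 n ∣ log v (L_{ρ, γ} g_ψ)` when `γ (S T) γ⁻¹ ∈ ±Γ₁(M)` (`ψ` trivial on torsion) -/
theorem dvd_log_Lpt1_gfun1_rho (h : Hyp1 ψ n) (hell : IsEllFree1 ψ) (γ : SL(2, ℤ))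
    (hσ : γ * (ModularGroup.S * ModularGroup.T) * γ⁻¹ ∈ PG1 M) :
    (3 * n : ℤ) ∣ log (Valued.v (Lpt1 M rho γ (gfun1 h))) := by
  rw [log_valuation_Lpt1_gfun1' h _ γ]
  obtain ⟨c, hc⟩ := three_dvd_mpt1 h hσ (killsConj_of_isEllFree1 hell (by norm_num) ST_pow_six)
  rw [hc]
  exact (Dvd.intro c (by ring)).neg_right

/-- `γ T^w γ⁻¹ ∈ ±Γ₁(M)` for `w` the width of the coset of `γ⁻¹` -/
theorem conj_T_width1_mem_of_inv (γ : SL(2, ℤ)) :
    γ * ModularGroup.T ^ ((width1 M (QuotientGroup.mk γ⁻¹ : Q1 M) : ℕ) : ℤ) * γ⁻¹ ∈ PG1 M := by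
  set q : Q1 M := QuotientGroup.mk γ⁻¹ with hq
  have h : (ModularGroup.T ^ width1 M q : SL(2, ℤ)) • q = q := by
    have := Function.isPeriodicPt_minimalPeriod
      ((ModularGroup.T : SL(2, ℤ)) • · : Q1 M → _) q
    have h2 : ((ModularGroup.T : SL(2, ℤ)) • · : Q1 M → _)^[width1 M q] q = q := this
    rwa [smul_iterate_apply] at h2
  have h3 := (smul_mk_eq_iff1 (M := M) (ModularGroup.T ^ width1 M q : SL(2, ℤ)) γ⁻¹).mp h
  rw [inv_inv] at h3
  rw [zpow_natCast]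
  exact h3

/-- cusps: `M n ∣ w · log v (Λ_γ g_ψ)`, `w` the width of the coset of `γ⁻¹` (`ψ` parabolic) -/
theorem dvd_log_Λrep1_gfun1 (h : Hyp1 ψ n) (hpar : ParConj1 ψ) (γ : SL(2, ℤ)) :
    (M : ℤ) * n ∣ ((width1 M (QuotientGroup.mk γ⁻¹ : Q1 M) : ℕ) : ℤ) *
        log (Valued.v (Λrep1 M γ (gfun1 h))) := by
  rw [log_valuation_Λrep1_gfun1 h hpar γ]
  set w := width1 M (QuotientGroup.mk γ⁻¹ : Q1 M) with hw
  obtain ⟨d, hd⟩ := width1_dvd M (QuotientGroup.mk γ⁻¹ : Q1 M)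
  rw [← hw] at hd
  have hw0 : 0 < w := width1_pos M _
  obtain ⟨c, hc⟩ := dvd_mcusp1 h hpar γ hd.symm hw0 (conj_T_width1_mem_of_inv γ)
  rw [hc]
  refine ⟨-c, ?_⟩
  have hM : (M : ℤ) = (w : ℤ) * (d : ℤ) := by exact_mod_cast hd
  rw [hM]
  ring

/-! ### surjectivity of the dictionary, modulo "every place of `FC1 M` is a point or a cusp" -/

/-- the shape of the local-global principle for the places of `FC1 M` (twin of the conclusion of
`AllPlacesC.dvd_ord_of_local_mk` for `F := FC1 M`, `ρ := (repFieldEquiv1 heq).symm`) -/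
def LocalGlobal1 (M : ℕ) [NeZero M] (heq : RepEq M) : Prop :=
  ∀ (g : FC1 M), g ≠ 0 → ∀ n : ℕ,
    (∀ (τ : ℍ) (γ : SL(2, ℤ)),
      (n : ℤ) ∣ log (Valued.v (Lpt1 M τ γ ((repFieldEquiv1 heq).symm g)))) →
    (∀ γ : SL(2, ℤ), γ * ModularGroup.S * γ⁻¹ ∈ PG1 M →
      (2 * n : ℤ) ∣ log (Valued.v (Lpt1 M UpperHalfPlane.I γ ((repFieldEquiv1 heq).symm g)))) →
    (∀ γ : SL(2, ℤ), γ * (ModularGroup.S * ModularGroup.T) * γ⁻¹ ∈ PG1 M →
      (3 * n : ℤ) ∣ log (Valued.v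
        (Lpt1 M Fermat.Agent.LevelOne.JBasic.rho γ ((repFieldEquiv1 heq).symm g)))) →
    (∀ γ : SL(2, ℤ), (M : ℤ) * n ∣ ((width1 M (QuotientGroup.mk γ⁻¹ : Q1 M) : ℕ) : ℤ) *
          log (Valued.v (Λrep1 M γ ((repFieldEquiv1 heq).symm g)))) →
    ∀ P : Place ℂ (FC1 M), (n : ℤ) ∣ P.ord g

/-- `n ∣ ord_v g_ψ` at every place, from the local-global principle (`ψ` trivial on torsion) -/
theorem dvd_ord_gFC1 (heq : RepEq M) (hLG : LocalGlobal1 M heq) (h : Hyp1 ψ n)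
    (hpar : IsParChar1 ψ) (hell : IsEllFree1 ψ) (v : Place ℂ (FC1 M)) :
    (n : ℤ) ∣ v.ord (gFC1 heq h) := by
  refine hLG (gFC1 heq h) (gFC1_ne_zero heq h) n ?_ ?_ ?_ ?_ v
  · intro τ γ
    rw [symm_gFC1]
    exact dvd_log_Lpt1_gfun1 h τ γ
  · intro γ hσ
    rw [symm_gFC1]
    exact dvd_log_Lpt1_gfun1_I h hell γ hσ
  · intro γ hσ
    rw [symm_gFC1]
    exact dvd_log_Lpt1_gfun1_rho h hell γ hσ
  · intro γ
    rw [symm_gFC1]
    exact dvd_log_Λrep1_gfun1 h (parConj1_of_isParChar1 hpar) γ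

/-- no conjugate of `S` lies in `±Γ₁(M)` when `S` acts freely on `Q1 M` -/
theorem conj_not_mem_of_free {σ : SL(2, ℤ)} (hfree : ∀ q : Q1 M, σ • q ≠ q) (γ : SL(2, ℤ)) :
    γ * σ * γ⁻¹ ∉ PG1 M := by
  intro hσ
  apply hfree (QuotientGroup.mk γ⁻¹ : Q1 M)
  rw [smul_mk_eq_iff1, inv_inv]
  exact hσ

/-- `n ∣ ord_v g_ψ` at every place, from the local-global principle, when `S` and `S T` act freely
on `Q1 M` (no elliptic points) -/
theorem dvd_ord_gFC1_of_free (heq : RepEq M) (hLG : LocalGlobal1 M heq) (h : Hyp1 ψ n)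
    (hpar : IsParChar1 ψ) (hS : ∀ q : Q1 M, (ModularGroup.S : SL(2, ℤ)) • q ≠ q)
    (hST : ∀ q : Q1 M, (ModularGroup.S * ModularGroup.T : SL(2, ℤ)) • q ≠ q)
    (v : Place ℂ (FC1 M)) : (n : ℤ) ∣ v.ord (gFC1 heq h) := by
  refine hLG (gFC1 heq h) (gFC1_ne_zero heq h) n ?_ ?_ ?_ ?_ v
  · intro τ γ
    rw [symm_gFC1]
    exact dvd_log_Lpt1_gfun1 h τ γ
  · intro γ hσ
    exact absurd hσ (conj_not_mem_of_free hS γ)
  · intro γ hσ
    exact absurd hσ (conj_not_mem_of_free hST γ)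
  · intro γ
    rw [symm_gFC1]
    exact dvd_log_Λrep1_gfun1 h (parConj1_of_isParChar1 hpar) γ

/-- **`PsiDict1.surj`, modulo the local-global principle for the places of `FC1 M`** (general `M`,
characters trivial on the torsion of `Γ₁(M)`) -/
theorem psiDict1_surj_of_localGlobal_of_ellFree (hdeg : Deg1 M) (hle : RepLe M)
    (hLG : LocalGlobal1 M (repEq_of M hdeg hle)) (ψ : Gamma1 M →* ℂˣ)
    (hψ : ψ ∈ charGroup1 M) (hell : IsEllFree1 ψ) (hfin : IsOfFinOrder ψ) :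
    ∃ x, IsPsiOf1 M x ψ := by
  obtain ⟨m, hm0, hm⟩ := (isOfFinOrder_iff_pow_eq_one).mp hfin
  have h : Hyp1 ψ m := hyp1_of_isParChar1 hψ hm0.ne' hm
  exact exists_isPsiOf1_of_dvd (repEq_of M hdeg hle) (hasPrincipalDivisors_FC1 M hdeg hle) h
    (dvd_ord_gFC1 _ hLG h hψ hell)

/-- **`PsiDict1.surj`, modulo the local-global principle for the places of `FC1 M`**, `M ≥ 4` -/
theorem psiDict1_surj_of_localGlobal (hM : 4 ≤ M) (hdeg : Deg1 M) (hle : RepLe M)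
    (hLG : LocalGlobal1 M (repEq_of M hdeg hle)) (ψ : Gamma1 M →* ℂˣ)
    (hψ : ψ ∈ charGroup1 M) (hfin : IsOfFinOrder ψ) : ∃ x, IsPsiOf1 M x ψ := by
  obtain ⟨m, hm0, hm⟩ := (isOfFinOrder_iff_pow_eq_one).mp hfin
  have h : Hyp1 ψ m := hyp1_of_isParChar1 hψ hm0.ne' hm
  exact exists_isPsiOf1_of_dvd (repEq_of M hdeg hle) (hasPrincipalDivisors_FC1 M hdeg hle) h
    (dvd_ord_gFC1_of_free _ hLG h hψ
      (Fermat.Agent.S48.B.B1.Count1.Free.S_smul_ne M (by omega))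
      (Fermat.Agent.S48.B.B1.Count1.Free.ST_smul_ne M hM))

end Fermat.Agent.S48.B.Dict.TwistedSurj

end
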