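import Mathlib
import Fermat.Agent.S30.Analytic.Character
import Fermat.Agent.S30.Analytic.Local
import Fermat.Agent.S30.Analytic.PsiData
import Fermat.Agent.S48.B.Defs.Spec
import Fermat.Agent.S48.B.B1.Seams
import Fermat.Agent.S48.B.B1.RepHom1
import Fermat.Agent.S48.B.B1.Lmap1Taylor
import Fermat.Agent.S48.B.Dict.RepChar

/-!
# PROJECT D (S48), part B, block B5, brick C2: the root character does not depend on the data,
level `Γ₁(M)` (helper5; twin of my `S30/Analytic/PsiData`)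

The function-level engine `S30.Analytic.PsiData.isRootChar_of_relation` is level-free and reused.

* `isRepOf1_spec_iff` : the bridge `Spec.IsRepOf1 ↔ Seams.IsRepOf1` (same fields);
* `rootCharOf1_pow_mul` : `RootCharOf1 M n g ψ → RootCharOf1 M (n * m) (g ^ m) ψ`;
* `isPsiOf1_iff` (in terms of `RootCharOf1`), `isRepC1_of_FC1` (from `Seams.RepLe M`);
* **`isPsiOf1_add`** = `PsiDict1.add` (no hypothesis);
* `exists_relation1` : two data `(n, D, f)`, `(n', D', f')` of the same class satisfy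
  `f ^ n' = c f' ^ n g ^ (n n')`;
* **`isPsiOf1_unique`** = `PsiDict1.unique`, and **`isRootChar_of_isPsiOf1`** = independence of
  the data (DI), both under `hrep : RepLe M` and `hconst` : functions without zeros and poles are
  constant.
-/

set_option autoImplicit false

noncomputable section

namespace Fermat.Agent.S48.B.Dict.PsiData

open UpperHalfPlane ModularForm CongruenceSubgroup AlgebraicCurve ModularCurve
open scoped Manifold MatrixGroups ModularForm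
open Fermat.Agent.S20
open Fermat.Agent.S24.RepHom (mdiff_of_isMF)
open Fermat.Agent.S30.Analytic.Character Fermat.Agent.S30.Analytic.Local
open Fermat.Agent.S30.Analytic.PsiData (isRootChar_of_relation)
open Fermat.Agent.S48.B.Defs.Model
open Fermat.Agent.S48.B.B1.RepHom1 Fermat.Agent.S48.B.B1.Lmap1Taylor
open Fermat.Agent.S48.B.Dict.RepChar

/-! ### the bridge between the two spellings of "represented" -/

/-- `Spec.IsRepOf1` (B5) and `Seams.IsRepOf1` (B1) have the same fields -/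
theorem isRepOf1_spec_iff {M : ℕ} {g : LaurentSeries ℂ} {k : ℤ} {a b : ℍ → ℂ} :
    Fermat.Agent.S48.B.Defs.Spec.IsRepOf1 M g k a b ↔
      Fermat.Agent.S48.B.B1.Seams.IsRepOf1 M g k a b :=
  ⟨fun h => ⟨h.ha, h.hb, h.hb0, h.eq⟩, fun h => ⟨h.ha, h.hb, h.hb0, h.eq⟩⟩

open Fermat.Agent.S48.B.B1.Seams
open Fermat.Agent.S48.B.Defs.Spec (FC1 IsPsiOf1)

/-! ### the root character of a modular function: powers -/

section RootCharOf

variable {M : ℕ} [NeZero M]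

/-- the `n m`-th roots of `g ^ m` have the character of the `n`-th roots of `g` -/
theorem rootCharOf1_pow_mul {n m : ℕ} (hn : n ≠ 0) (hm : m ≠ 0) {g : LaurentSeries ℂ}
    {ψ : Gamma1 M →* ℂˣ} (h : RootCharOf1 M n g ψ) : RootCharOf1 M (n * m) (g ^ m) ψ := by
  obtain ⟨k, a, b, hr, G, hG, hGF, hGψ⟩ := h
  refine ⟨(m : ℤ) * k, a ^ m, b ^ m, IsRepOf1_pow hr m, G * b ^ (m - 1), ?_, ?_, ?_⟩
  · exact hG.mul ((mdiff_of_isMF hr.hb).pow _)
  · obtain ⟨n', rfl⟩ : ∃ n', n = n' + 1 := ⟨n - 1, (Nat.succ_pred_eq_of_ne_zero hn).symm⟩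
    obtain ⟨m', rfl⟩ : ∃ m', m = m' + 1 := ⟨m - 1, (Nat.succ_pred_eq_of_ne_zero hm).symm⟩
    rw [Nat.add_sub_cancel] at hGF ⊢
    have e : (n' + 1) * (m' + 1) - 1 = n' * (m' + 1) + m' := by
      rw [Nat.add_mul, one_mul, ← Nat.add_assoc, Nat.add_sub_cancel]
    rw [e, mul_pow, pow_mul, hGF]
    ring
  · have hb1 : HasChar (Gamma1 M) k b 1 :=
      hasChar_one_iff.mpr fun γ hγ => slash_eq_of_isMF1 hr.hb hγ
    have h1 := hGψ.mul (hb1.pow (m - 1))
    have hk : k + ((m - 1 : ℕ) : ℤ) * k = (m : ℤ) * k := by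
      have : 1 ≤ m := Nat.one_le_iff_ne_zero.mpr hm
      push_cast [Nat.cast_sub this]
      ring
    have h2 := h1.cast hk
    intro γ
    have h5 := h2 γ
    simpa only [MonoidHom.mul_apply, MonoidHom.pow_apply, MonoidHom.one_apply, one_pow, mul_one]
      using h5

end RootCharOf

/-! ### `IsPsiOf1` : independence of the data, uniqueness, additivity -/

section Psi

variable (M : ℕ) [NeZero M]

/-- `IsPsiOf1` in terms of `RootCharOf1` -/
theorem isPsiOf1_iff (x : Pic0 ℂ (FC1 M)) (ψ : Gamma1 M →* ℂˣ) :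
    IsPsiOf1 M x ψ ↔ ∃ (n : ℕ) (D : Divisor.degZero (K := ℂ) (F := FC1 M)) (f : FC1 M),
      n ≠ 0 ∧ f ≠ 0 ∧ x = Pic0.mk D ∧
      (∀ v : Place ℂ (FC1 M), (n : ℤ) * (D : Divisor ℂ (FC1 M)) v = v.ord f) ∧
      RootCharOf1 M n (f : LaurentSeries ℂ) ψ := by
  constructor
  · rintro ⟨n, D, f, k, a, b, hn, hf, hx, hD, hr, hψ⟩
    exact ⟨n, D, f, hn, hf, hx, hD, k, a, b, isRepOf1_spec_iff.mp hr, hψ⟩
  · rintro ⟨n, D, f, hn, hf, hx, hD, k, a, b, hr, hψ⟩
    exact ⟨n, D, f, k, a, b, hn, hf, hx, hD, isRepOf1_spec_iff.mpr hr, hψ⟩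

variable {M} in
/-- every element of `FC1 M` is a quotient of two forms, given [Rep-b] -/
theorem isRepC1_of_FC1 (hrep : RepLe M) (u : FC1 M) : IsRepC1 M (u : LaurentSeries ℂ) :=
  hrep u.2

theorem coe_ne_zero {u : FC1 M} (hu : u ≠ 0) : (u : LaurentSeries ℂ) ≠ 0 := fun h =>
  hu (Subtype.ext h)

theorem ord_pow' (v : Place ℂ (FC1 M)) (f : FC1 M) (n : ℕ) :
    v.ord (f ^ n) = (n : ℤ) * v.ord f := by
  rw [← zpow_natCast, v.ord_zpow]

/-- **additivity** (`PsiDict1.add`) -/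
theorem isPsiOf1_add (x y : Pic0 ℂ (FC1 M)) (ψ ψ' : Gamma1 M →* ℂˣ) (h : IsPsiOf1 M x ψ)
    (h' : IsPsiOf1 M y ψ') : IsPsiOf1 M (x + y) (ψ * ψ') := by
  rw [isPsiOf1_iff] at h h' ⊢
  obtain ⟨n, D, f, hn, hf, rfl, hD, hψ⟩ := h
  obtain ⟨n', D', f', hn', hf', rfl, hD', hψ'⟩ := h'
  refine ⟨n * n', D + D', f ^ n' * f' ^ n, Nat.mul_ne_zero hn hn',
    mul_ne_zero (pow_ne_zero _ hf) (pow_ne_zero _ hf'), (Pic0.mk_add D D').symm, fun v => ?_, ?_⟩
  · have e : ((D + D' : Divisor.degZero (K := ℂ) (F := FC1 M)) : Divisor ℂ (FC1 M)) v =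
        (D : Divisor ℂ (FC1 M)) v + (D' : Divisor ℂ (FC1 M)) v := rfl
    rw [v.ord_mul (pow_ne_zero _ hf) (pow_ne_zero _ hf'), ord_pow', ord_pow', ← hD v, ← hD' v, e]
    push_cast
    ring
  · have h1 := rootCharOf1_pow_mul hn hn' hψ
    have h2 := rootCharOf1_pow_mul hn' hn hψ'
    rw [mul_comm n' n] at h2
    exact h1.mul h2

/-- two data for the same class: `f ^ n' = c f' ^ n g ^ (n n')` -/
theorem exists_relation1
    (hconst : ∀ u : FC1 M, u ≠ 0 → (∀ v : Place ℂ (FC1 M), v.ord u = 0) →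
      ∃ c : ℂ, u = algebraMap ℂ (FC1 M) c)
    {n n' : ℕ} {D D' : Divisor.degZero (K := ℂ) (F := FC1 M)} {f f' : FC1 M} (hf : f ≠ 0)
    (hf' : f' ≠ 0) (hx : Pic0.mk D = Pic0.mk D')
    (hD : ∀ v : Place ℂ (FC1 M), (n : ℤ) * (D : Divisor ℂ (FC1 M)) v = v.ord f)
    (hD' : ∀ v : Place ℂ (FC1 M), (n' : ℤ) * (D' : Divisor ℂ (FC1 M)) v = v.ord f') :
    ∃ (g : FC1 M) (c : ℂ), g ≠ 0 ∧ c ≠ 0 ∧ (f : LaurentSeries ℂ) ^ n' =
      HahnSeries.C c * ((f' : LaurentSeries ℂ) ^ n * (g : LaurentSeries ℂ) ^ (n * n')) := by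
  -- `D - D'` is principal
  have hprin : ((D - D' : Divisor.degZero (K := ℂ) (F := FC1 M)) : Divisor ℂ (FC1 M)) ∈
      Divisor.principal (K := ℂ) (F := FC1 M) := by
    have := (QuotientAddGroup.eq (s := (Divisor.principal (K := ℂ) (F := FC1 M)).addSubgroupOf
      (Divisor.degZero (K := ℂ) (F := FC1 M)))).mp hx.symm
    rw [AddSubgroup.mem_addSubgroupOf] at this
    have e : (D - D' : Divisor.degZero (K := ℂ) (F := FC1 M)) = -D' + D := by abel
    rw [e]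
    exact this
  obtain ⟨g, hg, hgD⟩ := hprin
  -- the function `u = f ^ n' / (f' ^ n g ^ (n n'))` has no zeros and poles
  set u : FC1 M := f ^ n' * (f' ^ n * g ^ (n * n'))⁻¹ with hu
  have hden : f' ^ n * g ^ (n * n') ≠ 0 := mul_ne_zero (pow_ne_zero _ hf') (pow_ne_zero _ hg)
  have hu0 : u ≠ 0 := mul_ne_zero (pow_ne_zero _ hf) (inv_ne_zero hden)
  have hord : ∀ v : Place ℂ (FC1 M), v.ord u = 0 := by
    intro v
    have e : ((D - D' : Divisor.degZero (K := ℂ) (F := FC1 M)) : Divisor ℂ (FC1 M)) v =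
        (D : Divisor ℂ (FC1 M)) v - (D' : Divisor ℂ (FC1 M)) v := rfl
    rw [hu, v.ord_mul (pow_ne_zero _ hf) (inv_ne_zero hden), v.ord_inv,
      v.ord_mul (pow_ne_zero _ hf') (pow_ne_zero _ hg), ord_pow', ord_pow', ord_pow', ← hD v,
      ← hD' v, ← hgD v, e]
    push_cast
    ring
  obtain ⟨c, hc⟩ := hconst u hu0 hord
  have hc0 : c ≠ 0 := by
    rintro rfl
    rw [map_zero] at hc
    exact hu0 hc
  have hrel : f ^ n' = algebraMap ℂ (FC1 M) c * (f' ^ n * g ^ (n * n')) := by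
    rw [← hc, hu, mul_assoc, inv_mul_cancel₀ hden, mul_one]
  refine ⟨g, c, hg, hc0, ?_⟩
  have hCc : algebraMap ℂ (LaurentSeries ℂ) c = HahnSeries.C c := by
    have h1 : algebraMap ℂ (PowerSeries ℂ) c = PowerSeries.C c := rfl
    rw [HahnSeries.algebraMap_apply', h1, HahnSeries.ofPowerSeries_C]
  have := congrArg (fun z : FC1 M => (z : LaurentSeries ℂ)) hrel
  rw [← hCc]
  exact this

/-- **uniqueness** (`PsiDict1.unique`), given [Rep-b] and that functions without zeros and poles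
are constant -/
theorem isPsiOf1_unique (hrep : RepLe M)
    (hconst : ∀ u : FC1 M, u ≠ 0 → (∀ v : Place ℂ (FC1 M), v.ord u = 0) →
      ∃ c : ℂ, u = algebraMap ℂ (FC1 M) c)
    (x : Pic0 ℂ (FC1 M)) (ψ ψ' : Gamma1 M →* ℂˣ) (h : IsPsiOf1 M x ψ) (h' : IsPsiOf1 M x ψ') :
    ψ = ψ' := by
  rw [isPsiOf1_iff] at h h'
  obtain ⟨n, D, f, hn, hf, rfl, hD, hψ⟩ := h
  obtain ⟨n', D', f', hn', hf', hx, hD', hψ'⟩ := h'
  obtain ⟨g, c, hg, hc0, hrel'⟩ := exists_relation1 M hconst hf hf' hx hD hD'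
  have h1 := rootCharOf1_pow_mul hn hn' hψ
  have h2 := rootCharOf1_pow_mul hn' hn hψ'
  rw [mul_comm n' n] at h2
  have h3 : RootCharOf1 M (n * n') ((g : LaurentSeries ℂ) ^ (n * n')) 1 :=
    rootCharOf1_pow_self (Nat.mul_ne_zero hn hn') (isRepC1_of_FC1 hrep g)
  have h4 : RootCharOf1 M (n * n') (HahnSeries.C c) 1 :=
    rootCharOf1_const (Nat.mul_ne_zero hn hn') c
  have h5 := h4.mul (h2.mul h3)
  rw [← hrel'] at h5
  have := RootCharOf1.unique (Nat.mul_ne_zero hn hn') (pow_ne_zero _ (coe_ne_zero M hf)) h1 h5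
  rw [this]
  ext γ
  simp only [MonoidHom.mul_apply, MonoidHom.one_apply, one_mul, mul_one]

/-- **(DI) independence of the data**: if `ψ` is the character of the class `y`, then for EVERY
datum `(m, D, f, k, a, b)` of `y` the form `a b ^ (m - 1)` has `m`-th roots with character `ψ`. -/
theorem isRootChar_of_isPsiOf1 (hrep : RepLe M)
    (hconst : ∀ u : FC1 M, u ≠ 0 → (∀ v : Place ℂ (FC1 M), v.ord u = 0) →
      ∃ c : ℂ, u = algebraMap ℂ (FC1 M) c)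
    {y : Pic0 ℂ (FC1 M)} {ψ : Gamma1 M →* ℂˣ} (h : IsPsiOf1 M y ψ) {m : ℕ} (hm : m ≠ 0)
    {D : Divisor.degZero (K := ℂ) (F := FC1 M)} {f : FC1 M} (hf : f ≠ 0) (hy : y = Pic0.mk D)
    (hD : ∀ v : Place ℂ (FC1 M), (m : ℤ) * (D : Divisor ℂ (FC1 M)) v = v.ord f)
    {k : ℤ} {a b : ℍ → ℂ} (hr : IsRepOf1 M (f : LaurentSeries ℂ) k a b) :
    IsRootChar (Gamma1 M) m k (a * b ^ (m - 1)) ψ := by
  obtain ⟨n', D', f', k', a', b', hn', hf', hy', hD', hr'0, hψ⟩ := h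
  have hr' : IsRepOf1 M (f' : LaurentSeries ℂ) k' a' b' := isRepOf1_spec_iff.mp hr'0
  obtain ⟨g, c, hg, hc0, hrel⟩ := exists_relation1 M hconst hf hf' (hy.symm.trans hy') hD hD'
  obtain ⟨k'', α, β, hrg⟩ := isRepC1_of_FC1 hrep g
  -- the two representations of `f ^ n'`
  have hr1 := IsRepOf1_pow hr n'
  have hr2 := IsRepOf1x.mul (IsRepOf1x.const (M := M) c)
    (IsRepOf1x.mul (IsRepOf1_pow hr' m) (IsRepOf1_pow hrg (m * n')))
  rw [← hrel] at hr2
  have hcross := IsRepOf1x.cross hr1 hr2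
  have hrel' : a ^ n' * b' ^ m * β ^ (n' * m) = c • (a' ^ m * α ^ (n' * m) * b ^ n') := by
    rw [mul_comm n' m]
    ext τ
    have := congrFun hcross τ
    simp only [Pi.mul_apply, Pi.pow_apply, Pi.one_apply, Pi.smul_apply, smul_eq_mul] at this ⊢
    linear_combination this
  have hone : ∀ {k₀ : ℤ} {b₀ : ℍ → ℂ}, IsMF (G1 M) k₀ b₀ → HasChar (Gamma1 M) k₀ b₀ 1 :=
    fun hb₀ => hasChar_one_iff.mpr fun γ hγ => slash_eq_of_isMF1 hb₀ hγ
  exact isRootChar_of_relation hn' hm (mdiff_of_isMF hr.ha) (mdiff_of_isMF hr.hb)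
    (mdiff_of_isMF hr'.ha) (mdiff_of_isMF hr'.hb) (mdiff_of_isMF hrg.ha) (mdiff_of_isMF hrg.hb)
    (num_ne_zero_of_isRepOf1 hr (coe_ne_zero M hf)) hr.hb0
    (num_ne_zero_of_isRepOf1 hr' (coe_ne_zero M hf')) hr'.hb0
    (num_ne_zero_of_isRepOf1 hrg (coe_ne_zero M hg)) hrg.hb0
    (hone hr.hb) (hone hr'.hb) (hone hrg.ha) (hone hrg.hb) hc0 hrel' hψ

/-- (DI) in the `Spec` spelling of the representation -/
theorem isRootChar_of_isPsiOf1_spec (hrep : RepLe M)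
    (hconst : ∀ u : FC1 M, u ≠ 0 → (∀ v : Place ℂ (FC1 M), v.ord u = 0) →
      ∃ c : ℂ, u = algebraMap ℂ (FC1 M) c)
    {y : Pic0 ℂ (FC1 M)} {ψ : Gamma1 M →* ℂˣ} (h : IsPsiOf1 M y ψ) {m : ℕ} (hm : m ≠ 0)
    {D : Divisor.degZero (K := ℂ) (F := FC1 M)} {f : FC1 M} (hf : f ≠ 0) (hy : y = Pic0.mk D)
    (hD : ∀ v : Place ℂ (FC1 M), (m : ℤ) * (D : Divisor ℂ (FC1 M)) v = v.ord f)
    {k : ℤ} {a b : ℍ → ℂ}
    (hr : Fermat.Agent.S48.B.Defs.Spec.IsRepOf1 M (f : LaurentSeries ℂ) k a b) :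
    IsRootChar (Gamma1 M) m k (a * b ^ (m - 1)) ψ :=
  isRootChar_of_isPsiOf1 M hrep hconst h hm hf hy hD (isRepOf1_spec_iff.mp hr)

end Psi

end Fermat.Agent.S48.B.Dict.PsiData
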