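import Mathlib
import Fermat.Agent.S30.Descent.PhiDictCore
import Fermat.Agent.S48.B.Dict.PsiData
import Fermat.Agent.S48.B.Dict.FinrankC

/-!
# PROJECT D (S48), part B, block B5 (C): `PsiDict1.unique`, `PsiDict1.add` and (DI) for `X₁(M)`,
on `Deg1 M` and `RepLe M` only (helper27)

Twin of main's `S30/Analytic/PsiDataFinal.lean`.  The hypothesis `hconst` of helper5's
`Dict/PsiData` (functions on `X₁(M)` over `ℂ` without zeros and poles are constant) is discharged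
by main's level-free `Descent.PhiDictCore.const_of_ord_eq_zero` applied to the separating variable
`jFC1 M` of `FC1 M` (`FinrankC.isFF_jFC1'`, from `Deg1 M`).

* `const_of_ord_eq_zero1`;
* **`isPsiOf1_unique`**, **`isPsiOf1_add`** : the fields `unique` and `add` of `Spec.PsiDict1 M`;
* **`isRootChar_of_isPsiOf1`** (+ the `Spec.IsRepOf1` spelling) : independence of the data (DI).
-/

set_option autoImplicit false

noncomputable section

namespace Fermat.Agent.S48.B.Dict.PsiDataFinal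

open UpperHalfPlane CongruenceSubgroup AlgebraicCurve ModularCurve
open Fermat.Agent.S30.Analytic.Character
open Fermat.Agent.S48.B.Defs.Model
open Fermat.Agent.S48.B.Defs.Spec (FC1 IsPsiOf1)
open Fermat.Agent.S48.B.B1.Seams (Deg1 RepLe)
open scoped MatrixGroups

variable (M : ℕ) [NeZero M]

/-- functions on `X₁(M)` over `ℂ` without zeros and poles are constant -/
theorem const_of_ord_eq_zero1 (hdeg : Deg1 M) (u : FC1 M) (hu : u ≠ 0)
    (h : ∀ v : Place ℂ (FC1 M), v.ord u = 0) : ∃ c : ℂ, u = algebraMap ℂ (FC1 M) c :=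
  Fermat.Agent.S30.Descent.PhiDictCore.const_of_ord_eq_zero
    (Fermat.Agent.S48.B.Dict.FinrankC.isFF_jFC1' M hdeg) u hu h

/-- **`PsiDict1.unique`** -/
theorem isPsiOf1_unique (hdeg : Deg1 M) (hle : RepLe M) (x : Pic0 ℂ (FC1 M))
    (ψ ψ' : Gamma1 M →* ℂˣ) (h : IsPsiOf1 M x ψ) (h' : IsPsiOf1 M x ψ') : ψ = ψ' :=
  Fermat.Agent.S48.B.Dict.PsiData.isPsiOf1_unique M hle (const_of_ord_eq_zero1 M hdeg) x ψ ψ' h h'

/-- **`PsiDict1.add`** -/
theorem isPsiOf1_add (x y : Pic0 ℂ (FC1 M)) (ψ ψ' : Gamma1 M →* ℂˣ) (h : IsPsiOf1 M x ψ)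
    (h' : IsPsiOf1 M y ψ') : IsPsiOf1 M (x + y) (ψ * ψ') :=
  Fermat.Agent.S48.B.Dict.PsiData.isPsiOf1_add M x y ψ ψ' h h'

/-- **(DI) independence of the data** -/
theorem isRootChar_of_isPsiOf1 (hdeg : Deg1 M) (hle : RepLe M) {y : Pic0 ℂ (FC1 M)}
    {ψ : Gamma1 M →* ℂˣ} (h : IsPsiOf1 M y ψ) {m : ℕ} (hm : m ≠ 0)
    {D : Divisor.degZero (K := ℂ) (F := FC1 M)} {f : FC1 M} (hf : f ≠ 0) (hy : y = Pic0.mk D)
    (hD : ∀ v : Place ℂ (FC1 M), (m : ℤ) * (D : Divisor ℂ (FC1 M)) v = v.ord f)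
    {k : ℤ} {a b : ℍ → ℂ}
    (hr : Fermat.Agent.S48.B.B1.Seams.IsRepOf1 M (f : LaurentSeries ℂ) k a b) :
    IsRootChar (Gamma1 M) m k (a * b ^ (m - 1)) ψ :=
  Fermat.Agent.S48.B.Dict.PsiData.isRootChar_of_isPsiOf1 M hle (const_of_ord_eq_zero1 M hdeg) h hm
    hf hy hD hr

/-- **(DI)**, with the representation in the spelling of `Defs/Spec` -/
theorem isRootChar_of_isPsiOf1_spec (hdeg : Deg1 M) (hle : RepLe M) {y : Pic0 ℂ (FC1 M)}
    {ψ : Gamma1 M →* ℂˣ} (h : IsPsiOf1 M y ψ) {m : ℕ} (hm : m ≠ 0)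
    {D : Divisor.degZero (K := ℂ) (F := FC1 M)} {f : FC1 M} (hf : f ≠ 0) (hy : y = Pic0.mk D)
    (hD : ∀ v : Place ℂ (FC1 M), (m : ℤ) * (D : Divisor ℂ (FC1 M)) v = v.ord f)
    {k : ℤ} {a b : ℍ → ℂ}
    (hr : Fermat.Agent.S48.B.Defs.Spec.IsRepOf1 M (f : LaurentSeries ℂ) k a b) :
    IsRootChar (Gamma1 M) m k (a * b ^ (m - 1)) ψ :=
  Fermat.Agent.S48.B.Dict.PsiData.isRootChar_of_isPsiOf1_spec M hle (const_of_ord_eq_zero1 M hdeg)
    h hm hf hy hD hr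

end Fermat.Agent.S48.B.Dict.PsiDataFinal

end
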