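import Mathlib
import Fermat.Agent.S30.Analytic.FinOrder
import Fermat.Agent.S30.Analytic.Local
import Fermat.Agent.S21.Parabolic
import Fermat.Agent.S48.B.Defs.Spec
import Fermat.Agent.S48.B.B1.RepEq1
import Fermat.Agent.S48.B.Dict.RepChar
import Fermat.Agent.S48.B.Dict.PointPlace

/-!
# PROJECT D (S48), block B5, brick C1 (helper27): twin of `S30/Analytic/TorsionChar.lean`

The analytic dictionary `Ψ` on torsion classes for `X₁(M)`.  For `FC1 M = ℂ · F1 M` (identified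
with `repField1 M` by `RepEq1.repFieldEquiv1`, which needs `hrep : Seams.RepEq M`) we prove three of
the fields of `Spec.PsiDict1 M`:

* **`exists_isPsiOf1_of_torsion`** (`exists_of_torsion`): every torsion class has a root character;
* **`eq_zero_of_isPsiOf1_one`** (`injective`): a class with trivial root character is zero;
* **`mem_charGroup1_of_isPsiOf1`** (`mem`): root characters are parabolic and of finite order.
  NEW with respect to the `Γ₀` original: `-1 ∉ Γ₁(M)`; for `5 ≤ M` a parabolic element of `Γ₁(M)`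
  has trace `2` (its trace is `≡ 2` modulo `M`), so it is conjugate to a power of `T` and the
  irregular case `-(δ T ^ m δ⁻¹)` does not occur.

`psiDict1_of` assembles `Spec.PsiDict1 M` from the remaining three fields.
-/

set_option autoImplicit false
set_option linter.unusedSectionVars false

noncomputable section

namespace Fermat.Agent.S48.B.Dict.TorsionChar

open UpperHalfPlane ModularForm CongruenceSubgroup AlgebraicCurve ModularCurve Function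
open Fermat.Agent.S20 Fermat.Agent.S23.QRing
open Fermat.Agent.S24.RepHom (mdiff_of_isMF)
open Fermat.Agent.S24.LaurentCusp
open Fermat.Agent.S30.Analytic.Character Fermat.Agent.S30.Analytic.Local
open Fermat.Agent.S48.B.Defs.Model
open Fermat.Agent.S48.B.Defs.Spec (FC1 IsPsiOf1 IsParChar1 charGroup1 PsiDict1)
open Fermat.Agent.S48.B.B1.Seams Fermat.Agent.S48.B.B1.RepHom1 Fermat.Agent.S48.B.B1.RepEq1
open Fermat.Agent.S48.B.B1.Lmap1J Fermat.Agent.S48.B.B1.Lmap1Taylor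
open Fermat.Agent.S48.B.B1.LaurentCusp1
open Fermat.Agent.S48.B.Dict.RepChar Fermat.Agent.S48.B.Dict.PointPlace
open scoped Manifold MatrixGroups ModularForm

variable (M : ℕ) [NeZero M]

/-- the identification `FC1 M → repField1 M` (identity on Laurent series) -/
def rho1 (hrep : RepEq M) : FC1 M →+* repField1 M :=
  ((repFieldEquiv1 hrep).symm : FC1 M ≃+* repField1 M)

theorem coe_rho1 (hrep : RepEq M) (f : FC1 M) :
    ((rho1 M hrep f : repField1 M) : LaurentSeries ℂ) = (f : LaurentSeries ℂ) :=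
  rfl

theorem constCompat_rho1 (hrep : RepEq M) : ConstCompat1 (rho1 M hrep) := by
  intro c
  apply Subtype.ext
  rw [coe_rho1]
  show algebraMap ℂ (LaurentSeries ℂ) c = HahnSeries.C c
  rw [Fermat.Agent.S24.OrbitDefs.algebraMap_eq_ofPS_C]
  exact HahnSeries.ofPowerSeries_C (Γ := ℤ) c

theorem surjective_rho1 (hrep : RepEq M) : Surjective (rho1 M hrep) :=
  (repFieldEquiv1 hrep).symm.surjective

variable {M}

/-- the two spellings of "represented" (B5's `Spec` and B1's `Seams`) have the same fields -/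
theorem isRepOf1_of_spec {g : LaurentSeries ℂ} {k : ℤ} {a b : ℍ → ℂ}
    (h : Fermat.Agent.S48.B.Defs.Spec.IsRepOf1 M g k a b) : IsRepOf1 M g k a b :=
  ⟨h.ha, h.hb, h.hb0, h.eq⟩

theorem isRepOf1_to_spec {g : LaurentSeries ℂ} {k : ℤ} {a b : ℍ → ℂ}
    (h : IsRepOf1 M g k a b) : Fermat.Agent.S48.B.Defs.Spec.IsRepOf1 M g k a b :=
  ⟨h.ha, h.hb, h.hb0, h.eq⟩

/-- the data of `IsPsiOf1`, without the class -/
structure PsiData1 (n : ℕ) (D : Divisor ℂ (FC1 M)) (f : FC1 M) (k : ℤ) (a b : ℍ → ℂ) : Prop where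
  hn : n ≠ 0
  hf : f ≠ 0
  hD : ∀ v : Place ℂ (FC1 M), (n : ℤ) * D v = v.ord f
  hr : IsRepOf1 M (f : LaurentSeries ℂ) k a b

namespace PsiData1

variable {n : ℕ} {D : Divisor ℂ (FC1 M)} {f : FC1 M} {k : ℤ} {a b : ℍ → ℂ}

theorem hf' (h : PsiData1 n D f k a b) : (f : LaurentSeries ℂ) ≠ 0 := fun h0 =>
  h.hf (Subtype.ext h0)

theorem ha (h : PsiData1 n D f k a b) : MDiff a := mdiff_of_isMF h.hr.ha

theorem hb (h : PsiData1 n D f k a b) : MDiff b := mdiff_of_isMF h.hr.hb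

theorem ha0 (h : PsiData1 n D f k a b) : a ≠ 0 :=
  num_ne_zero_of_isRepOf1 h.hr h.hf'

/-- the orders at the points of `ℍ` -/
theorem exists_point (hrep : RepEq M) (h : PsiData1 n D f k a b) (τ : ℍ) :
    ∃ (P : Place ℂ (FC1 M)) (e : ℕ), 0 < e ∧
      (((ordAt a τ).toNat : ℤ) - ((ordAt b τ).toNat : ℤ)) = e * ((n : ℤ) * D P) ∧
      (∀ σ : SL(2, ℤ), σ ∈ PG1 M → σ • τ = τ →
        denom (σ : GL (Fin 2) ℝ) τ ^ (2 * e) = 1) := by
  obtain ⟨P, e, he, hord, hden⟩ :=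
    exists_place_point1 (constCompat_rho1 M hrep) (surjective_rho1 M hrep) τ
  refine ⟨P, e, he, ?_, hden⟩
  rw [h.hD P]
  exact hord f h.hf k a b h.hr

/-- the orders at the cusps -/
theorem exists_cusp (hrep : RepEq M) (h : PsiData1 n D f k a b) (σ : SL(2, ℤ)) {w : ℕ}
    (hw0 : 0 < w) (hw : σ * ModularGroup.T ^ (w : ℤ) * σ⁻¹ ∈ Gamma1 M) :
    ∃ (P : Place ℂ (FC1 M)) (e : ℕ), 0 < e ∧
      (((cuspOrd w (a ∣[k] σ)).toNat : ℤ) - ((cuspOrd w (b ∣[k] σ)).toNat : ℤ)) =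
        e * ((n : ℤ) * D P) := by
  obtain ⟨P, e, he, hord⟩ :=
    exists_place_cusp1 (constCompat_rho1 M hrep) (surjective_rho1 M hrep) σ hw0 hw
  refine ⟨P, e, he, ?_⟩
  rw [h.hD P]
  exact hord f h.hf k a b h.hr

/-- all orders of `a * b ^ (n - 1)` are divisible by `n` -/
theorem exists_ordAt_eq (hrep : RepEq M) (h : PsiData1 n D f k a b) (τ : ℍ) :
    ∃ m : ℕ, ordAt (a * b ^ (n - 1)) τ = ((n * m : ℕ) : ℕ∞) := by
  obtain ⟨P, e, -, hord, -⟩ := h.exists_point hrep τ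
  have hn1 : 1 ≤ n := Nat.one_le_iff_ne_zero.mpr h.hn
  have hna : ordAt a τ ≠ ⊤ := ordAt_ne_top h.ha h.ha0 τ
  have hnb : ordAt b τ ≠ ⊤ := ordAt_ne_top h.hb h.hr.hb0 τ
  set ma := (ordAt a τ).toNat with hma
  set mb := (ordAt b τ).toNat with hmb
  have ea : ordAt a τ = (ma : ℕ∞) := (ENat.natCast_toNat hna).symm
  have eb : ordAt b τ = (mb : ℕ∞) := (ENat.natCast_toNat hnb).symm
  have e1 : ordAt (a * b ^ (n - 1)) τ = ((ma + (n - 1) * mb : ℕ) : ℕ∞) := by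
    rw [ordAt_mul h.ha (h.hb.pow _), ordAt_pow h.hb, ea, eb]
    push_cast
    rw [nsmul_eq_mul]
    rfl
  set z : ℤ := e * D P + mb with hz
  have hz1 : (n : ℤ) * z = ((ma + (n - 1) * mb : ℕ) : ℤ) := by
    push_cast [Nat.cast_sub hn1]
    rw [hz]
    linarith
  have hz0 : 0 ≤ z := by
    by_contra hcon
    rw [not_le] at hcon
    have h1 : (0 : ℤ) ≤ ((ma + (n - 1) * mb : ℕ) : ℤ) := Int.natCast_nonneg _
    have h2 : (1 : ℤ) ≤ n := by exact_mod_cast hn1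
    nlinarith
  refine ⟨z.toNat, ?_⟩
  rw [e1]
  congr 1
  have : ((n * z.toNat : ℕ) : ℤ) = ((ma + (n - 1) * mb : ℕ) : ℤ) := by
    rw [Nat.cast_mul, Int.toNat_of_nonneg hz0, hz1]
  exact_mod_cast this.symm

end PsiData1

/-! ### Existence -/

theorem coe_nsmul_apply (n : ℕ) (D : Divisor.degZero (K := ℂ) (F := FC1 M))
    (v : Place ℂ (FC1 M)) :
    ((n • D : Divisor.degZero (K := ℂ) (F := FC1 M)) : Divisor ℂ (FC1 M)) v =
      (n : ℤ) * (D : Divisor ℂ (FC1 M)) v := by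
  rw [AddSubgroup.coe_nsmul, Finsupp.smul_apply, nsmul_eq_mul]

variable (M) in
/-- **`exists_of_torsion`**: every torsion class has a root character. -/
theorem exists_isPsiOf1_of_torsion (hrep : RepEq M) (x : Pic0 ℂ (FC1 M))
    (hx : ∃ n : ℕ, n ≠ 0 ∧ n • x = 0) : ∃ ψ, IsPsiOf1 M x ψ := by
  obtain ⟨n, hn, hx⟩ := hx
  obtain ⟨D, rfl⟩ := Pic0.mk_surjective x
  have h1 : (QuotientAddGroup.mk (n • D) : Pic0 ℂ (FC1 M)) = 0 := hx
  rw [QuotientAddGroup.eq_zero_iff, AddSubgroup.mem_addSubgroupOf] at h1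
  obtain ⟨f, hf, hDf⟩ := h1
  obtain ⟨k, a, b, hr⟩ := (rho1 M hrep f).2
  have hdata : PsiData1 n (D : Divisor ℂ (FC1 M)) f k a b :=
    ⟨hn, hf, fun v => by rw [← hDf v, coe_nsmul_apply], hr⟩
  obtain ⟨ψ, hψ, -⟩ := exists_isRootChar (Γ := Gamma1 M) hn (rootForm1_mdiff hr n)
    (rootForm1_ne_zero hr hdata.hf' n) (fun _ hγ => rootForm1_slash hr hn hγ)
    (hdata.exists_ordAt_eq hrep)
  exact ⟨ψ, n, D, f, k, a, b, hn, hf, rfl, hdata.hD, isRepOf1_to_spec hr, hψ⟩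

/-! ### Injectivity -/

variable (M) in
/-- **`injective`**: a class with trivial root character is zero. -/
theorem eq_zero_of_isPsiOf1_one (hrep : RepEq M) (x : Pic0 ℂ (FC1 M)) (h : IsPsiOf1 M x 1) :
    x = 0 := by
  obtain ⟨n, D, f, k, a, b, hn, hf, rfl, hD, hr', hψ⟩ := h
  have hr : IsRepOf1 M (f : LaurentSeries ℂ) k a b := isRepOf1_of_spec hr'
  have hFmf : IsMF (G1 M) (k * n) (a * b ^ (n - 1)) := (rootForm1_isMF hr hn).cast (mul_comm _ _)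
  obtain ⟨Fm, hFm⟩ := hFmf
  have hψ' : IsRootChar (Gamma1 M) n k (Fm : ℍ → ℂ) 1 := by rw [hFm]; exact hψ
  obtain ⟨G, hG⟩ := exists_modularForm_of_isRootChar_one hn Fm hψ'
  have hGa : (G : ℍ → ℂ) ^ n = a * b ^ (n - 1) := hG.trans hFm
  have hGmf : IsMF (G1 M) k (G : ℍ → ℂ) := IsMF.coe G
  set qb := ofPS (qx b) with hqb
  have hqb0 : qb ≠ 0 := IsRepOf1x.qx_b_ne_zero hr
  set gs : LaurentSeries ℂ := ofPS (qx (G : ℍ → ℂ)) / qb with hgs
  have hrG : IsRepOf1 M gs k (G : ℍ → ℂ) b :=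
    ⟨hGmf, hr.hb, hr.hb0, by rw [hgs, div_mul_cancel₀ _ hqb0]⟩
  have hgs_mem : gs ∈ repField1 M := ⟨k, _, b, hrG⟩
  have hn1 : 1 ≤ n := Nat.one_le_iff_ne_zero.mpr hn
  have hpow : gs ^ n = (f : LaurentSeries ℂ) := by
    have h1 : ofPS (qx ((G : ℍ → ℂ) ^ n)) = ofPS (qx (G : ℍ → ℂ)) ^ n := by
      rw [qx_pow (isQ_of_isMF1 hGmf), map_pow]
    have h2 : ofPS (qx (a * b ^ (n - 1))) = ofPS (qx a) * qb ^ (n - 1) := by
      rw [qx_mul (isQ_of_isMF1 hr.ha) (isQ_of_isMF1 (hr.hb.pow (n - 1))),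
        qx_pow (isQ_of_isMF1 hr.hb), map_mul, map_pow]
    rw [hGa, h2, hr.eq] at h1
    rw [hgs, div_pow, ← h1, mul_assoc, ← pow_succ', Nat.sub_add_cancel hn1,
      mul_div_cancel_right₀ _ (pow_ne_zero n hqb0)]
  set g : FC1 M := repFieldEquiv1 hrep ⟨gs, hgs_mem⟩ with hg
  have hgf : g ^ n = f := Subtype.ext (by
    rw [SubmonoidClass.coe_pow]
    exact hpow)
  have hg0 : g ≠ 0 := by
    intro h0
    rw [h0, zero_pow hn] at hgf
    exact hf hgf.symm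
  have hDg : ∀ v : Place ℂ (FC1 M), (D : Divisor ℂ (FC1 M)) v = v.ord g := by
    intro v
    have h1 := hD v
    rw [← hgf, ← zpow_natCast, v.ord_zpow] at h1
    exact mul_left_cancel₀ (Nat.cast_ne_zero.mpr hn) h1
  show (QuotientAddGroup.mk D : Pic0 ℂ (FC1 M)) = 0
  rw [QuotientAddGroup.eq_zero_iff, AddSubgroup.mem_addSubgroupOf]
  exact ⟨g, hg0, hDg⟩

/-! ### Parabolic elements of `Γ₁(M)` -/

theorem trace_conj_T_zpow (δ : SL(2, ℤ)) (m : ℤ) :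
    ((δ * ModularGroup.T ^ m * δ⁻¹ : SL(2, ℤ)) : Matrix (Fin 2) (Fin 2) ℤ).trace = 2 := by
  rw [Matrix.SpecialLinearGroup.coe_mul, Matrix.trace_mul_comm, ← Matrix.SpecialLinearGroup.coe_mul,
    ← mul_assoc, inv_mul_cancel, one_mul, ModularGroup.coe_T_zpow, Matrix.trace_fin_two_of]
  norm_num

omit [NeZero M] in
/-- the trace of an element of `Γ₁(M)` is `2` modulo `M` -/
theorem trace_Gamma1 {γ : SL(2, ℤ)} (hγ : γ ∈ Gamma1 M) :
    (((γ : Matrix (Fin 2) (Fin 2) ℤ).trace : ℤ) : ZMod M) = 2 := by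
  rw [Gamma1_mem] at hγ
  rw [Matrix.trace_fin_two, Int.cast_add, hγ.1, hγ.2.1]
  norm_num

omit [NeZero M] in
/-- for `5 ≤ M` the irregular case does not occur in `Γ₁(M)` -/
theorem neg_conj_T_zpow_not_mem (hM : 5 ≤ M) (δ : SL(2, ℤ)) (m : ℤ) :
    -(δ * ModularGroup.T ^ m * δ⁻¹) ∉ Gamma1 M := by
  intro hmem
  have h1 := trace_Gamma1 hmem
  have h2 : ((-(δ * ModularGroup.T ^ m * δ⁻¹) : SL(2, ℤ)) : Matrix (Fin 2) (Fin 2) ℤ).trace
      = -2 := by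
    rw [Matrix.SpecialLinearGroup.coe_neg, Matrix.trace_neg, trace_conj_T_zpow]
  rw [h2] at h1
  have h3 : ((4 : ℕ) : ZMod M) = 0 := by
    have : ((-2 : ℤ) : ZMod M) = 2 := h1
    push_cast at this
    have h4 : (4 : ZMod M) = 2 - (-2) := by ring
    rw [Nat.cast_ofNat, h4, this]
    ring
  have h5 := (ZMod.natCast_eq_zero_iff 4 M).mp h3
  have := Nat.le_of_dvd (by norm_num) h5
  omega

/-! ### The root characters are parabolic and of finite order -/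

namespace PsiData1

variable {n : ℕ} {D : Divisor ℂ (FC1 M)} {f : FC1 M} {k : ℤ} {a b : ℍ → ℂ}
  {ψ : Gamma1 M →* ℂˣ}

theorem bdd_slash (h : PsiData1 n D f k a b) (σ : SL(2, ℤ)) :
    IsBoundedAtImInfty (a ∣[k] σ) ∧ IsBoundedAtImInfty (b ∣[k] σ) :=
  ⟨(isCuspHol_slash_of_isMF h.hr.ha σ).bdd, (isCuspHol_slash_of_isMF h.hr.hb σ).bdd⟩

/-- the root character is trivial at `δ T ^ w δ⁻¹`, `w ≥ 1` -/
theorem apply_eq_one_of_conj_T_pos (hrep : RepEq M) (h : PsiData1 n D f k a b)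
    (hψ : IsRootChar (Gamma1 M) n k (a * b ^ (n - 1)) ψ) (γ : Gamma1 M) (δ : SL(2, ℤ)) {w : ℕ}
    (hw : 0 < w) (hγ : (γ : SL(2, ℤ)) = δ * ModularGroup.T ^ (w : ℤ) * δ⁻¹) : ψ γ = 1 := by
  have hmem : δ * ModularGroup.T ^ (w : ℤ) * δ⁻¹ ∈ Gamma1 M := hγ ▸ γ.2
  obtain ⟨P, e, -, hord⟩ := h.exists_cusp hrep δ hw hmem
  refine IsRootChar.apply_eq_one_of_parabolic h.hn h.ha h.hb h.ha0 h.hr.hb0 hψ γ
    (slash_eq_of_isMF1 h.hr.ha γ.2) (slash_eq_of_isMF1 h.hr.hb γ.2) hw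
    (by rw [hγ, inv_mul_cancel_right]) (h.bdd_slash δ).1 (h.bdd_slash δ).2 ?_
  rw [hord]
  exact ⟨e * D P, by ring⟩

/-- the root character is trivial at `δ T ^ m δ⁻¹` -/
theorem apply_eq_one_of_conj_T (hrep : RepEq M) (h : PsiData1 n D f k a b)
    (hψ : IsRootChar (Gamma1 M) n k (a * b ^ (n - 1)) ψ) (γ : Gamma1 M) (δ : SL(2, ℤ)) (m : ℤ)
    (hγ : (γ : SL(2, ℤ)) = δ * ModularGroup.T ^ m * δ⁻¹) : ψ γ = 1 := by
  rcases lt_trichotomy m 0 with hm | hm | hm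
  · have h1 : ((γ⁻¹ : Gamma1 M) : SL(2, ℤ)) =
        δ * ModularGroup.T ^ (((-m).toNat : ℕ) : ℤ) * δ⁻¹ := by
      rw [Int.toNat_of_nonneg (by omega), Subgroup.coe_inv, hγ, zpow_neg]
      group
    have h2 := h.apply_eq_one_of_conj_T_pos hrep hψ γ⁻¹ δ (w := (-m).toNat) (by omega) h1
    rwa [map_inv, inv_eq_one] at h2
  · have h1 : γ = 1 := by
      apply Subtype.ext
      rw [hγ, hm, zpow_zero, mul_one, mul_inv_cancel]
      rfl
    rw [h1, map_one]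
  · have h1 : (γ : SL(2, ℤ)) = δ * ModularGroup.T ^ ((m.toNat : ℕ) : ℤ) * δ⁻¹ := by
      rw [Int.toNat_of_nonneg hm.le, hγ]
    exact h.apply_eq_one_of_conj_T_pos hrep hψ γ δ (w := m.toNat) (by omega) h1

/-- the root character is parabolic -/
theorem isParChar1 (hM : 5 ≤ M) (hrep : RepEq M) (h : PsiData1 n D f k a b)
    (hψ : IsRootChar (Gamma1 M) n k (a * b ^ (n - 1)) ψ) : IsParChar1 ψ := by
  intro γ htr
  obtain ⟨δ, m, hγ | hγ⟩ := Fermat.Agent.S21.Parabolic.exists_conj_T_zpow (γ : SL(2, ℤ)) htr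
  · exact h.apply_eq_one_of_conj_T hrep hψ γ δ m hγ
  · exact absurd (hγ ▸ γ.2) (neg_conj_T_zpow_not_mem hM δ m)

/-- the root character has finite order -/
theorem pow_eq_one (h : PsiData1 n D f k a b)
    (hψ : IsRootChar (Gamma1 M) n k (a * b ^ (n - 1)) ψ) : ψ ^ n = 1 :=
  hψ.pow_eq_one h.hn (rootForm1_ne_zero h.hr h.hf' n)
    (fun _ hγ => rootForm1_slash h.hr h.hn hγ)

end PsiData1

theorem exists_data_of_isPsiOf1 {x : Pic0 ℂ (FC1 M)} {ψ : Gamma1 M →* ℂˣ}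
    (h : IsPsiOf1 M x ψ) :
    ∃ (n : ℕ) (D : Divisor.degZero (K := ℂ) (F := FC1 M)) (f : FC1 M) (k : ℤ) (a b : ℍ → ℂ),
      x = Pic0.mk D ∧ PsiData1 n (D : Divisor ℂ (FC1 M)) f k a b ∧
      IsRootChar (Gamma1 M) n k (a * b ^ (n - 1)) ψ := by
  obtain ⟨n, D, f, k, a, b, hn, hf, hx, hD, hr, hψ⟩ := h
  exact ⟨n, D, f, k, a, b, hx, ⟨hn, hf, hD, isRepOf1_of_spec hr⟩, hψ⟩

variable (M) in
/-- **`mem`**: root characters are parabolic and of finite order. -/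
theorem mem_charGroup1_of_isPsiOf1 (hM : 5 ≤ M) (hrep : RepEq M) (x : Pic0 ℂ (FC1 M))
    (ψ : Gamma1 M →* ℂˣ) (h : IsPsiOf1 M x ψ) : ψ ∈ charGroup1 M ∧ IsOfFinOrder ψ := by
  obtain ⟨n, D, f, k, a, b, -, hdata, hψ⟩ := exists_data_of_isPsiOf1 h
  refine ⟨hdata.isParChar1 hM hrep hψ, ?_⟩
  exact isOfFinOrder_iff_pow_eq_one.mpr ⟨n, Nat.pos_of_ne_zero hdata.hn, hdata.pow_eq_one hψ⟩

variable (M) in
/-- **Assembly of `Spec.PsiDict1 M`** from the three remaining fields. -/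
theorem psiDict1_of (hM : 5 ≤ M) (hrep : RepEq M)
    (hunique : ∀ (x : Pic0 ℂ (FC1 M)) ψ ψ', IsPsiOf1 M x ψ → IsPsiOf1 M x ψ' → ψ = ψ')
    (hadd : ∀ (x y : Pic0 ℂ (FC1 M)) ψ ψ', IsPsiOf1 M x ψ → IsPsiOf1 M y ψ' →
      IsPsiOf1 M (x + y) (ψ * ψ'))
    (hsurj : ∀ ψ, ψ ∈ charGroup1 M → IsOfFinOrder ψ → ∃ x, IsPsiOf1 M x ψ) : PsiDict1 M where
  exists_of_torsion := exists_isPsiOf1_of_torsion M hrep
  unique := hunique
  add := hadd
  injective := eq_zero_of_isPsiOf1_one M hrep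
  mem := mem_charGroup1_of_isPsiOf1 M hM hrep
  surj := hsurj

end Fermat.Agent.S48.B.Dict.TorsionChar
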