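import Mathlib
import Fermat.Agent.S48.B.Dict.TorsionChar
import Fermat.Agent.S48.B.Dict.PsiDataFinal
import Fermat.Agent.S48.B.Dict.TwistedSurj

/-!
# PROJECT D (S48), part B, block B5 (C): the analytic dictionary `Ψ` of `X₁(M)` from the
local-global principle for the places of `ℂ(X₁(M))` (helper27, assembly)

Twin of the last lines of main's `S30/Analytic/PsiSurj.lean` / `PsiDictFinal.lean`, stated
hypothesis-first on helper29's literal `TwistedSurj.LocalGlobal1`:

* `psiDict1_surj` : the field `surj` of `Spec.PsiDict1 M` (helper29 `TwistedSurj`);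
* **`psiDict1_of_localGlobal`** : all six fields of `Spec.PsiDict1 M` for `5 ≤ M`, from
  `Deg1 M`, `RepLe M` and `LocalGlobal1 M` : `exists_of_torsion`, `injective`, `mem` from
  `Dict/TorsionChar`, `unique`, `add` from helper5's `Dict/PsiData` through `Dict/PsiDataFinal`,
  `surj` from the above.

So block (C) of B5 is EXACTLY `LocalGlobal1 M heq` (= the twin of main's `AllPlacesC` and its glue).
-/

set_option autoImplicit false

namespace Fermat.Agent.S48.B.Dict.PsiDictOf

open AlgebraicCurve CongruenceSubgroup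
open Fermat.Agent.S48.B.Defs.Model Fermat.Agent.S48.B.Defs.Spec
open Fermat.Agent.S48.B.B1.Seams (Deg1 RepLe RepEq)
open Fermat.Agent.S48.B.B1.RepEq1 (repEq_of)
open Fermat.Agent.S48.B.Dict.TwistedSurj (LocalGlobal1)

open scoped MatrixGroups

variable (M : ℕ) [NeZero M]

/-- **`PsiDict1.surj`** : every character of finite order in `charGroup1 M` is in the image of the
analytic dictionary (`M ≥ 4`). -/
theorem psiDict1_surj (hM : 4 ≤ M) (hdeg : Deg1 M) (hle : RepLe M)
    (hLG : LocalGlobal1 M (repEq_of M hdeg hle)) (ψ : Gamma1 M →* ℂˣ) (hψ : ψ ∈ charGroup1 M)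
    (hfin : IsOfFinOrder ψ) : ∃ x, IsPsiOf1 M x ψ :=
  Fermat.Agent.S48.B.Dict.TwistedSurj.psiDict1_surj_of_localGlobal hM hdeg hle hLG ψ hψ hfin

/-- **The analytic dictionary `Ψ` of `X₁(M)` over `ℂ`** (`M ≥ 5`), from the degree, the
representation of the function field by quotients of forms, and the local-global principle for
the places of `ℂ(X₁(M))`. -/
theorem psiDict1_of_localGlobal (hM : 5 ≤ M) (hdeg : Deg1 M) (hle : RepLe M)
    (hLG : LocalGlobal1 M (repEq_of M hdeg hle)) : PsiDict1 M :=
  Fermat.Agent.S48.B.Dict.TorsionChar.psiDict1_of M hM (repEq_of M hdeg hle)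
    (Fermat.Agent.S48.B.Dict.PsiDataFinal.isPsiOf1_unique M hdeg hle)
    (Fermat.Agent.S48.B.Dict.PsiDataFinal.isPsiOf1_add M)
    (psiDict1_surj M (by omega) hdeg hle hLG)

end Fermat.Agent.S48.B.Dict.PsiDictOf
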